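/-
IHARA / P (helper2), part 5: Krull dimension does not drop along an injective integral
extension of domains (going-up).
-/
import Mathlib

set_option autoImplicit false
set_option linter.style.haveILetI false

namespace Fermat.Agent.Ihara

/-- every chain of primes of a domain can be made to start at `⊥` without getting shorter -/
theorem ihp_exists_ltSeries_head_bot {S : Type*} [CommRing S] [IsDomain S]
    (l : LTSeries (PrimeSpectrum S)) :
    ∃ l' : LTSeries (PrimeSpectrum S), l'.head = ⊥ ∧ l.length ≤ l'.length := by
  by_cases h : l.head = ⊥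
  · exact ⟨l, h, le_rfl⟩
  · refine ⟨l.cons ⊥ (lt_of_le_of_ne bot_le (Ne.symm h)), ?_, ?_⟩
    · simp
    · simp

/-- going-up: an injective integral extension of domains does not lower the Krull dimension -/
theorem ihp_ringKrullDim_le_of_integral {S B : Type*} [CommRing S] [CommRing B] [IsDomain S]
    [IsDomain B] [Algebra S B] [Algebra.IsIntegral S B]
    (hinj : Function.Injective (algebraMap S B)) :
    ringKrullDim S ≤ ringKrullDim B := by
  unfold ringKrullDim Order.krullDim
  apply iSup_le
  intro l
  obtain ⟨l', hhead, hlen⟩ := ihp_exists_ltSeries_head_bot l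
  haveI : (⊥ : Ideal B).LiesOver (RelSeries.head l').asIdeal := by
    constructor
    rw [hhead]
    change (⊥ : Ideal S) = Ideal.comap (algebraMap S B) ⊥
    rw [← RingHom.ker_eq_comap_bot, (RingHom.injective_iff_ker_eq_bot _).mp hinj]
  obtain ⟨L, hL, -, -⟩ := Ideal.exists_ltSeries_of_hasGoingUp l' (⊥ : Ideal B)
  refine le_trans ?_ (le_iSup _ L)
  rw [hL]
  exact_mod_cast hlen

end Fermat.Agent.Ihara
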