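/-
IHARA / P (helper2), part 6: the support argument.

If `θ : R →+* Mat_d(S)` (`S` a domain, `d > 0`) has all scalars in its image, then `R ⧸ ker θ`
is an integral extension of `S`; hence there is a prime `𝔔 ⊇ ker θ` of `R`, not containing the
uniformiser, with `dim S ≤ dim R ⧸ 𝔔`; and if `θ t` is divisible by the uniformiser then
`t ^ d ∈ ker θ + (ϖ)`.
-/
import Mathlib
import Fermat.Agent.Lib.Ihara.P.Dim

set_option autoImplicit false
set_option linter.style.haveILetI false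
set_option linter.unusedSectionVars false

namespace Fermat.Agent.Ihara

open Polynomial

variable {R S : Type*} [CommRing R] [CommRing S] [IsDomain S] {d : ℕ}

theorem ihp_algebraMap_matrix (s : S) :
    algebraMap S (Matrix (Fin d) (Fin d) S) s = Matrix.scalar (Fin d) s := by
  rw [Algebra.algebraMap_eq_smul_one, Matrix.smul_one_eq_diagonal]
  rfl

/-- the limit statement -/
theorem ihp_core_limit (hd : 0 < d) (ϖ : S) (hϖ : ϖ ≠ 0) (ϖR t : R) (J : Ideal R)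
    (θ : R →+* Matrix (Fin d) (Fin d) S)
    (hJ : ∀ x ∈ J, θ x = 0)
    (hϖθ : θ ϖR = Matrix.scalar (Fin d) ϖ)
    (ht : ∃ Y : Matrix (Fin d) (Fin d) S, θ t = ϖ • Y)
    (hsc : ∀ s : S, ∃ ρ : R, θ ρ = Matrix.scalar (Fin d) s)
    (hL : ∀ 𝔔 : Ideal R, 𝔔.IsPrime → J ≤ 𝔔 → ϖR ∉ 𝔔 →
        ringKrullDim S ≤ ringKrullDim (R ⧸ 𝔔) → ∀ m, t ^ m ∉ 𝔔 ⊔ Ideal.span {ϖR}) : False := by
  haveI : Nonempty (Fin d) := ⟨⟨0, hd⟩⟩
  set K := RingHom.ker θ with hK
  set θ' : (R ⧸ K) →+* Matrix (Fin d) (Fin d) S := RingHom.kerLift θ with hθ'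
  have hθ'inj : Function.Injective θ' := RingHom.kerLift_injective θ
  have hθ'mk : ∀ x, θ' (Ideal.Quotient.mk K x) = θ x := fun x => RingHom.kerLift_mk θ x
  -- the structure map `j : S → R ⧸ K`
  choose σ hσ using hsc
  have hjσ : ∀ s, θ' (Ideal.Quotient.mk K (σ s)) = Matrix.scalar (Fin d) s := by
    intro s
    rw [hθ'mk, hσ]
  let j : S →+* (R ⧸ K) :=
    { toFun := fun s => Ideal.Quotient.mk K (σ s)
      map_one' := hθ'inj (by rw [hjσ, map_one, map_one])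
      map_mul' := fun a b => hθ'inj (by rw [hjσ, map_mul θ', hjσ, hjσ, map_mul])
      map_zero' := hθ'inj (by rw [hjσ, map_zero, map_zero])
      map_add' := fun a b => hθ'inj (by rw [hjσ, map_add θ', hjσ, hjσ, map_add]) }
  have hj : ∀ s, θ' (j s) = Matrix.scalar (Fin d) s := hjσ
  have hjinj : Function.Injective j := by
    rw [injective_iff_map_eq_zero]
    intro s hs
    have h1 := hj s
    rw [hs, map_zero] at h1
    have h2 := congrFun (congrFun h1 ⟨0, hd⟩) ⟨0, hd⟩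
    simpa using h2.symm
  have hjϖ : j ϖ = Ideal.Quotient.mk K ϖR := hθ'inj (by rw [hj, hθ'mk, hϖθ])
  -- evaluation of polynomials
  have hevalθ : ∀ (a : R ⧸ K) (p : S[X]), θ' (p.eval₂ j a) = aeval (θ' a) p := by
    intro a p
    rw [Polynomial.hom_eval₂, aeval_def]
    congr 1
    ext s : 1
    rw [RingHom.comp_apply, hj, ihp_algebraMap_matrix]
  letI : Algebra S (R ⧸ K) := j.toAlgebra
  have hint : Algebra.IsIntegral S (R ⧸ K) := by
    refine ⟨fun a => ⟨(θ' a).charpoly, Matrix.charpoly_monic _, hθ'inj ?_⟩⟩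
    change θ' (eval₂ j a (θ' a).charpoly) = θ' 0
    rw [hevalθ, Matrix.aeval_self_charpoly, map_zero]
  -- a prime of `R ⧸ K` over `⊥`
  obtain ⟨Q, -, hQprime, hQ⟩ := Ideal.exists_ideal_over_prime_of_isIntegral (⊥ : Ideal S)
    (⊥ : Ideal (R ⧸ K)) (by
      change Ideal.comap j ⊥ ≤ ⊥
      rw [← RingHom.ker_eq_comap_bot, (RingHom.injective_iff_ker_eq_bot _).mp hjinj])
  have hQ' : ∀ s, j s ∈ Q → s = 0 := by
    intro s hs
    have : s ∈ Ideal.comap (algebraMap S (R ⧸ K)) Q := hs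
    rw [hQ] at this
    exact this
  set 𝔔 := Q.comap (Ideal.Quotient.mk K) with h𝔔
  haveI h𝔔prime : 𝔔.IsPrime := Ideal.comap_isPrime _ Q
  have hK𝔔 : K ≤ 𝔔 := by
    intro x hx
    rw [h𝔔, Ideal.mem_comap, Ideal.Quotient.eq_zero_iff_mem.mpr hx]
    exact Q.zero_mem
  have hJ𝔔 : J ≤ 𝔔 := fun x hx => hK𝔔 ((RingHom.mem_ker).mpr (hJ x hx))
  have hϖ𝔔 : ϖR ∉ 𝔔 := by
    intro h
    rw [h𝔔, Ideal.mem_comap, ← hjϖ] at h
    exact hϖ (hQ' ϖ h)
  -- the dimension of `R ⧸ 𝔔`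
  have hdim : ringKrullDim S ≤ ringKrullDim (R ⧸ 𝔔) := by
    let jB : S →+* (R ⧸ 𝔔) := (Ideal.Quotient.factor hK𝔔).comp j
    letI : Algebra S (R ⧸ 𝔔) := jB.toAlgebra
    haveI : IsDomain (R ⧸ 𝔔) := Ideal.Quotient.isDomain 𝔔
    have hjBinj : Function.Injective (algebraMap S (R ⧸ 𝔔)) := by
      rw [injective_iff_map_eq_zero]
      intro s hs
      change Ideal.Quotient.factor hK𝔔 (Ideal.Quotient.mk K (σ s)) = 0 at hs
      rw [Ideal.Quotient.factor_mk, Ideal.Quotient.eq_zero_iff_mem, h𝔔, Ideal.mem_comap] at hs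
      exact hQ' s hs
    haveI : Algebra.IsIntegral S (R ⧸ 𝔔) := by
      refine ⟨fun b => ?_⟩
      obtain ⟨a, rfl⟩ := Ideal.Quotient.factor_surjective hK𝔔 b
      obtain ⟨p, hp, hpa⟩ := hint.isIntegral a
      refine ⟨p, hp, ?_⟩
      change eval₂ ((Ideal.Quotient.factor hK𝔔).comp j) (Ideal.Quotient.factor hK𝔔 a) p = 0
      rw [← Polynomial.hom_eval₂]
      change Ideal.Quotient.factor hK𝔔 (eval₂ (algebraMap S (R ⧸ K)) a p) = 0
      rw [hpa, map_zero]
    exact ihp_ringKrullDim_le_of_integral hjBinj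
  -- the power of `t`
  obtain ⟨Y, hY⟩ := ht
  set P := scaleRoots Y.charpoly ϖ with hP
  have hP0 : aeval (θ t) P = 0 := by
    rw [hY, Algebra.smul_def, hP]
    exact scaleRoots_aeval_eq_zero (Matrix.aeval_self_charpoly Y)
  have hPA : P.eval₂ j (Ideal.Quotient.mk K t) = 0 :=
    hθ'inj (by rw [hevalθ, hθ'mk, hP0, map_zero])
  have hnat : Y.charpoly.natDegree = d := by
    rw [Matrix.charpoly_natDegree_eq_dim, Fintype.card_fin]
  have hdvd : C ϖ ∣ P - X ^ d := by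
    rw [Polynomial.C_dvd_iff_dvd_coeff]
    intro i
    rw [coeff_sub, hP, coeff_scaleRoots, coeff_X_pow, hnat]
    rcases lt_trichotomy i d with h | h | h
    · rw [if_neg (ne_of_lt h), sub_zero]
      exact Dvd.dvd.mul_left (dvd_pow_self ϖ (by omega)) _
    · have h1 : Y.charpoly.coeff d = 1 := by
        have h2 := (Matrix.charpoly_monic Y).coeff_natDegree
        rwa [hnat] at h2
      rw [h, if_pos rfl, Nat.sub_self, pow_zero, mul_one, h1, sub_self]
      exact dvd_zero _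
    · rw [if_neg (ne_of_gt h), sub_zero,
        coeff_eq_zero_of_natDegree_lt (by rw [hnat]; exact h), zero_mul]
      exact dvd_zero _
  obtain ⟨Q', hQ'eq⟩ := hdvd
  have hPeq : P = X ^ d + C ϖ * Q' := by
    rw [← hQ'eq]
    ring
  rw [hPeq, eval₂_add, eval₂_pow, eval₂_X, eval₂_mul, eval₂_C] at hPA
  obtain ⟨w, hw⟩ := Ideal.Quotient.mk_surjective (Q'.eval₂ j (Ideal.Quotient.mk K t))
  rw [← hw, hjϖ, ← map_pow, ← map_mul, ← map_add, Ideal.Quotient.eq_zero_iff_mem] at hPA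
  apply hL 𝔔 h𝔔prime hJ𝔔 hϖ𝔔 hdim d
  have h3 : t ^ d = (t ^ d + ϖR * w) - ϖR * w := by ring
  rw [h3]
  exact Ideal.sub_mem _ (Ideal.mem_sup_left (hK𝔔 hPA))
    (Ideal.mem_sup_right (Ideal.mul_mem_right _ _ (Ideal.subset_span rfl)))

end Fermat.Agent.Ihara
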