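/-
IHARA / P (helper2), part 1: ultralimits along a fixed non-principal ultrafilter on `ℕ`
in finite types and in adically complete rings with finite quotients.
-/
import Mathlib

set_option autoImplicit false
set_option linter.style.haveILetI false

namespace Fermat.Agent.Ihara

/-- the non-principal ultrafilter on `ℕ` used for patching -/
noncomputable def ihpU : Ultrafilter ℕ := Filter.hyperfilter ℕ

theorem ihp_eventually_ge (n₀ : ℕ) : ∀ᶠ n in (ihpU : Filter ℕ), n₀ ≤ n := by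
  have h : (ihpU : Filter ℕ) ≤ Filter.atTop := by
    rw [← Nat.cofinite_eq_atTop]
    exact Filter.hyperfilter_le_cofinite
  exact h (Filter.eventually_ge_atTop n₀)

theorem ihp_eventually_exists {p : ℕ → Prop} (h : ∀ᶠ n in (ihpU : Filter ℕ), p n) : ∃ n, p n :=
  h.exists

/-- ultralimit in a finite type -/
theorem ihp_ulim_finite {α : Type*} [Finite α] (f : ℕ → α) :
    ∃ a, ∀ᶠ n in (ihpU : Filter ℕ), f n = a := by
  obtain ⟨a, ha⟩ := Ultrafilter.eq_pure_of_finite (ihpU.map f)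
  refine ⟨a, ?_⟩
  have h1 : ({a} : Set α) ∈ (ihpU.map f : Filter α) := by
    rw [ha]
    exact Filter.mem_pure.mpr rfl
  exact h1

/-- ultralimit in an adically complete ring with finite quotients -/
theorem ihp_ulim {S : Type*} [CommRing S] (I : Ideal S) [IsAdicComplete I S]
    (hfin : ∀ k, Finite (S ⧸ I ^ k)) (a : ℕ → S) :
    ∃ l : S, ∀ k, ∀ᶠ n in (ihpU : Filter ℕ), a n - l ∈ I ^ k := by
  have h1 : ∀ k, ∃ c : S ⧸ I ^ k, ∀ᶠ n in (ihpU : Filter ℕ),
      Ideal.Quotient.mk (I ^ k) (a n) = c := by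
    intro k
    haveI := hfin k
    exact ihp_ulim_finite fun n => Ideal.Quotient.mk (I ^ k) (a n)
  choose c hc using h1
  have h2 : ∀ k, ∃ b : S, Ideal.Quotient.mk (I ^ k) b = c k :=
    fun k => Ideal.Quotient.mk_surjective (c k)
  choose b hb using h2
  have h3 : ∀ k, ∀ᶠ n in (ihpU : Filter ℕ), a n - b k ∈ I ^ k := by
    intro k
    filter_upwards [hc k] with n hn
    rw [← Ideal.Quotient.eq, hn, hb]
  have hcau : ∀ {m n : ℕ}, m ≤ n → b m ≡ b n [SMOD (I ^ m • ⊤ : Submodule S S)] := by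
    intro m n hmn
    obtain ⟨j, hj1, hj2⟩ := ((h3 m).and (h3 n)).exists
    rw [SModEq.sub_mem, smul_eq_mul, Ideal.mul_top]
    have h4 : a j - b n ∈ I ^ m := Ideal.pow_le_pow_right hmn hj2
    have h5 : b m - b n = (a j - b n) - (a j - b m) := by ring
    rw [h5]
    exact (I ^ m).sub_mem h4 hj1
  obtain ⟨l, hl⟩ := IsPrecomplete.prec' (I := I) b hcau
  refine ⟨l, fun k => ?_⟩
  filter_upwards [h3 k] with n hn
  have h6 : b k - l ∈ I ^ k := by
    have := hl k
    rwa [SModEq.sub_mem, smul_eq_mul, Ideal.mul_top] at this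
  have h7 : a n - l = (a n - b k) + (b k - l) := by ring
  rw [h7]
  exact (I ^ k).add_mem hn h6

/-- the ultralimit is unique -/
theorem ihp_ulim_unique {S : Type*} [CommRing S] (I : Ideal S) [IsHausdorff I S]
    (a : ℕ → S) {l l' : S}
    (hl : ∀ k, ∀ᶠ n in (ihpU : Filter ℕ), a n - l ∈ I ^ k)
    (hl' : ∀ k, ∀ᶠ n in (ihpU : Filter ℕ), a n - l' ∈ I ^ k) : l = l' := by
  rw [IsHausdorff.eq_iff_smodEq (I := I)]
  intro k
  obtain ⟨j, hj1, hj2⟩ := ((hl k).and (hl' k)).exists
  rw [SModEq.sub_mem, smul_eq_mul, Ideal.mul_top]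
  have h5 : l - l' = (a j - l') - (a j - l) := by ring
  rw [h5]
  exact (I ^ k).sub_mem hj2 hj1

/-- an element all of whose `I^k`-approximations vanish is zero -/
theorem ihp_eq_zero_of_forall_mem {S : Type*} [CommRing S] (I : Ideal S) [IsHausdorff I S]
    {x : S} (h : ∀ k, x ∈ I ^ k) : x = 0 := by
  apply IsHausdorff.haus' (I := I) x
  intro k
  rw [SModEq.zero, smul_eq_mul, Ideal.mul_top]
  exact h k

end Fermat.Agent.Ihara
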