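/-
IHARA / P (helper2), part 3: the patching construction in matrix form.

`S` is a complete local ring with finite quotients `S ⧸ 𝔪^k`, `𝔟 n` are ideals tending to `0`,
and `Θ n : R →+* Mat_d (S ⧸ 𝔟 n)` are ring homs.  The ultralimit is a ring hom
`θ : R →+* Mat_d S` which agrees with `Θ n` modulo `𝔟 n ⊔ 𝔪^k` for ultrafilter-many `n`.
-/
import Mathlib
import Fermat.Agent.Lib.Ihara.P.Ultra
import Fermat.Agent.Lib.Ihara.P.Nilp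

set_option autoImplicit false
set_option linter.style.haveILetI false
set_option linter.unusedSectionVars false

namespace Fermat.Agent.Ihara

open IsLocalRing

variable {R S : Type*} [CommRing R] [CommRing S] {d : ℕ}

/-- reduction of a matrix over `S` modulo `𝔟 ⊔ 𝔠` -/
noncomputable def ihpΦ (𝔟 𝔠 : Ideal S) :
    Matrix (Fin d) (Fin d) S →+* Matrix (Fin d) (Fin d) (S ⧸ (𝔟 ⊔ 𝔠)) :=
  (Ideal.Quotient.mk (𝔟 ⊔ 𝔠)).mapMatrix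

/-- reduction of a matrix over `S ⧸ 𝔟` modulo `𝔟 ⊔ 𝔠` -/
noncomputable def ihpΨ (𝔟 𝔠 : Ideal S) :
    Matrix (Fin d) (Fin d) (S ⧸ 𝔟) →+* Matrix (Fin d) (Fin d) (S ⧸ (𝔟 ⊔ 𝔠)) :=
  (Ideal.Quotient.factor (le_sup_left : 𝔟 ≤ 𝔟 ⊔ 𝔠)).mapMatrix

theorem ihpΦ_apply (𝔟 𝔠 : Ideal S) (X : Matrix (Fin d) (Fin d) S) (i j : Fin d) :
    ihpΦ 𝔟 𝔠 X i j = Ideal.Quotient.mk (𝔟 ⊔ 𝔠) (X i j) := rfl

theorem ihpΨ_apply (𝔟 𝔠 : Ideal S) (X : Matrix (Fin d) (Fin d) (S ⧸ 𝔟)) (i j : Fin d) :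
    ihpΨ 𝔟 𝔠 X i j = Ideal.Quotient.factor (le_sup_left : 𝔟 ≤ 𝔟 ⊔ 𝔠) (X i j) := rfl

theorem ihpΨ_mk (𝔟 𝔠 : Ideal S) (X : Matrix (Fin d) (Fin d) S) :
    ihpΨ 𝔟 𝔠 ((Ideal.Quotient.mk 𝔟).mapMatrix X) = ihpΦ 𝔟 𝔠 X := by
  ext i j
  rw [ihpΨ_apply, ihpΦ_apply]
  rfl

/-- if `𝔟 ≤ 𝔠` and the reduction of `X` mod `𝔟 ⊔ 𝔠` vanishes, the entries of `X` are in `𝔠` -/
theorem ihpΦ_eq_zero {𝔟 𝔠 : Ideal S} (h : 𝔟 ≤ 𝔠) {X : Matrix (Fin d) (Fin d) S}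
    (hX : ihpΦ 𝔟 𝔠 X = 0) (i j : Fin d) : X i j ∈ 𝔠 := by
  have h1 := congrFun (congrFun hX i) j
  rw [ihpΦ_apply, Matrix.zero_apply, Ideal.Quotient.eq_zero_iff_mem, sup_eq_right.mpr h] at h1
  exact h1

theorem ihpΦ_eq_zero_of_mem {𝔟 𝔠 : Ideal S} {X : Matrix (Fin d) (Fin d) S}
    (hX : ∀ i j, X i j ∈ 𝔠) : ihpΦ 𝔟 𝔠 X = 0 := by
  ext i j
  rw [ihpΦ_apply, Matrix.zero_apply, Ideal.Quotient.eq_zero_iff_mem]
  exact Ideal.mem_sup_right (hX i j)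

section patch

variable (I : Ideal S) [IsAdicComplete I S] (hfin : ∀ k, Finite (S ⧸ I ^ k))
  (𝔟 : ℕ → Ideal S) (h𝔟 : ∀ k, ∃ n₀, ∀ n, n₀ ≤ n → 𝔟 n ≤ I ^ k)

include h𝔟 in
/-- a matrix that vanishes modulo `𝔟 n ⊔ I^k` for ultrafilter-many `n`, for every `k`, is zero -/
theorem ihp_matrix_eq_zero {X : Matrix (Fin d) (Fin d) S}
    (hX : ∀ k, ∀ᶠ n in (ihpU : Filter ℕ), ihpΦ (𝔟 n) (I ^ k) X = 0) : X = 0 := by
  ext i j
  rw [Matrix.zero_apply]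
  apply ihp_eq_zero_of_forall_mem I
  intro k
  obtain ⟨n₀, hn₀⟩ := h𝔟 k
  obtain ⟨n, hn1, hn2⟩ := ((hX k).and (ihp_eventually_ge n₀)).exists
  exact ihpΦ_eq_zero (hn₀ n hn2) hn1 i j

include h𝔟 in
theorem ihp_matrix_ext {X Y : Matrix (Fin d) (Fin d) S}
    (hXY : ∀ k, ∀ᶠ n in (ihpU : Filter ℕ), ihpΦ (𝔟 n) (I ^ k) X = ihpΦ (𝔟 n) (I ^ k) Y) :
    X = Y := by
  rw [← sub_eq_zero]
  apply ihp_matrix_eq_zero I 𝔟 h𝔟
  intro k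
  filter_upwards [hXY k] with n hn
  rw [map_sub, hn, sub_self]

include hfin in
/-- ultralimit of a sequence of matrices over the quotients `S ⧸ 𝔟 n` -/
theorem ihp_exists_matrix_ulim (Y : ∀ n, Matrix (Fin d) (Fin d) (S ⧸ 𝔟 n)) :
    ∃ X : Matrix (Fin d) (Fin d) S, ∀ k, ∀ᶠ n in (ihpU : Filter ℕ),
      ihpΦ (𝔟 n) (I ^ k) X = ihpΨ (𝔟 n) (I ^ k) (Y n) := by
  have h1 : ∀ n i j, ∃ a : S, Ideal.Quotient.mk (𝔟 n) a = Y n i j :=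
    fun n i j => Ideal.Quotient.mk_surjective _
  choose L hL using h1
  have h2 : ∀ i j, ∃ l : S, ∀ k, ∀ᶠ n in (ihpU : Filter ℕ), L n i j - l ∈ I ^ k :=
    fun i j => ihp_ulim I hfin fun n => L n i j
  choose X hX using h2
  refine ⟨Matrix.of X, fun k => ?_⟩
  have h3 : ∀ᶠ n in (ihpU : Filter ℕ), ∀ i j, L n i j - X i j ∈ I ^ k := by
    rw [Filter.eventually_all]
    intro i
    rw [Filter.eventually_all]
    intro j
    exact hX i j k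
  filter_upwards [h3] with n hn
  ext i j
  rw [ihpΦ_apply, ihpΨ_apply, ← hL n i j, Ideal.Quotient.factor_mk, Matrix.of_apply,
    eq_comm, Ideal.Quotient.eq]
  exact Ideal.mem_sup_right (hn i j)

variable (Θ : ∀ n, R →+* Matrix (Fin d) (Fin d) (S ⧸ 𝔟 n))

include hfin h𝔟 in
/-- **patching**: the ultralimit of the ring homs `Θ n` is a ring hom -/
theorem ihp_patch :
    ∃ θ : R →+* Matrix (Fin d) (Fin d) S, ∀ ρ k, ∀ᶠ n in (ihpU : Filter ℕ),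
      ihpΦ (𝔟 n) (I ^ k) (θ ρ) = ihpΨ (𝔟 n) (I ^ k) (Θ n ρ) := by
  have h1 : ∀ ρ : R, ∃ X : Matrix (Fin d) (Fin d) S, ∀ k, ∀ᶠ n in (ihpU : Filter ℕ),
      ihpΦ (𝔟 n) (I ^ k) X = ihpΨ (𝔟 n) (I ^ k) (Θ n ρ) :=
    fun ρ => ihp_exists_matrix_ulim I hfin 𝔟 fun n => Θ n ρ
  choose θ hθ using h1
  have hone : θ 1 = 1 := by
    apply ihp_matrix_ext I 𝔟 h𝔟
    intro k
    filter_upwards [hθ 1 k] with n hn
    rw [hn, map_one, map_one, map_one]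
  have hmul : ∀ a b, θ (a * b) = θ a * θ b := by
    intro a b
    apply ihp_matrix_ext I 𝔟 h𝔟
    intro k
    filter_upwards [hθ (a * b) k, hθ a k, hθ b k] with n h1 h2 h3
    rw [h1, map_mul, map_mul, map_mul, h2, h3]
  have hzero : θ 0 = 0 := by
    apply ihp_matrix_ext I 𝔟 h𝔟
    intro k
    filter_upwards [hθ 0 k] with n hn
    rw [hn, map_zero, map_zero, map_zero]
  have hadd : ∀ a b, θ (a + b) = θ a + θ b := by
    intro a b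
    apply ihp_matrix_ext I 𝔟 h𝔟
    intro k
    filter_upwards [hθ (a + b) k, hθ a k, hθ b k] with n h1 h2 h3
    rw [h1, map_add, map_add, map_add, h2, h3]
  exact ⟨{ toFun := θ, map_one' := hone, map_mul' := hmul, map_zero' := hzero,
           map_add' := hadd }, hθ⟩

end patch

end Fermat.Agent.Ihara
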