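/-
IHARA / P (helper2), part 4: properties of the patched ring hom
(kernel, uniformiser, divisibility by the uniformiser, scalars in the image).
-/
import Mathlib
import Fermat.Agent.Lib.Ihara.P.Patch

set_option autoImplicit false
set_option linter.style.haveILetI false
set_option linter.unusedSectionVars false

namespace Fermat.Agent.Ihara

open IsLocalRing

variable {R S : Type*} [CommRing R] [CommRing S] {d : ℕ}

theorem ihpΦ_scalar (𝔟 𝔠 : Ideal S) (s : S) :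
    ihpΦ 𝔟 𝔠 (Matrix.scalar (Fin d) s) =
      Matrix.scalar (Fin d) (Ideal.Quotient.mk (𝔟 ⊔ 𝔠) s) := by
  ext i j
  rw [ihpΦ_apply]
  by_cases h : i = j
  · subst h
    simp
  · simp [h]

theorem ihpΨ_scalar (𝔟 𝔠 : Ideal S) (s : S) :
    ihpΨ 𝔟 𝔠 (Matrix.scalar (Fin d) (Ideal.Quotient.mk 𝔟 s)) =
      Matrix.scalar (Fin d) (Ideal.Quotient.mk (𝔟 ⊔ 𝔠) s) := by
  ext i j
  rw [ihpΨ_apply]
  by_cases h : i = j
  · subst h
    simp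
  · simp [h]

theorem ihpΦ_smul (𝔟 𝔠 : Ideal S) (s : S) (X : Matrix (Fin d) (Fin d) S) :
    ihpΦ 𝔟 𝔠 (s • X) = Ideal.Quotient.mk (𝔟 ⊔ 𝔠) s • ihpΦ 𝔟 𝔠 X := by
  ext i j
  rw [ihpΦ_apply, Matrix.smul_apply, Matrix.smul_apply, ihpΦ_apply, smul_eq_mul, smul_eq_mul,
    map_mul]

theorem ihpΨ_smul (𝔟 𝔠 : Ideal S) (s : S) (X : Matrix (Fin d) (Fin d) (S ⧸ 𝔟)) :
    ihpΨ 𝔟 𝔠 (Ideal.Quotient.mk 𝔟 s • X) = Ideal.Quotient.mk (𝔟 ⊔ 𝔠) s • ihpΨ 𝔟 𝔠 X := by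
  ext i j
  rw [ihpΨ_apply, Matrix.smul_apply, Matrix.smul_apply, ihpΨ_apply, smul_eq_mul, smul_eq_mul,
    map_mul, Ideal.Quotient.factor_mk]

/-- the cardinality of the matrix ring over `S ⧸ (𝔟 ⊔ 𝔠)` is bounded by that over `S ⧸ 𝔠` -/
theorem ihp_card_matrix_le (𝔟 𝔠 : Ideal S) [Finite (S ⧸ 𝔠)] :
    Finite (Matrix (Fin d) (Fin d) (S ⧸ (𝔟 ⊔ 𝔠))) ∧
    Nat.card (Matrix (Fin d) (Fin d) (S ⧸ (𝔟 ⊔ 𝔠))) ≤
      Nat.card (Matrix (Fin d) (Fin d) (S ⧸ 𝔠)) := by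
  have hsurj : Function.Surjective
      ((Ideal.Quotient.factor (le_sup_right : 𝔠 ≤ 𝔟 ⊔ 𝔠)).mapMatrix :
        Matrix (Fin d) (Fin d) (S ⧸ 𝔠) →+* Matrix (Fin d) (Fin d) (S ⧸ (𝔟 ⊔ 𝔠))) := by
    intro X
    have h1 : ∀ i j, ∃ a : S ⧸ 𝔠, Ideal.Quotient.factor (le_sup_right : 𝔠 ≤ 𝔟 ⊔ 𝔠) a = X i j :=
      fun i j => Ideal.Quotient.factor_surjective _ _
    choose Y hY using h1
    refine ⟨Matrix.of Y, ?_⟩
    ext i j
    exact hY i j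
  haveI : Finite (Matrix (Fin d) (Fin d) (S ⧸ 𝔠)) :=
    inferInstanceAs (Finite (Fin d → Fin d → (S ⧸ 𝔠)))
  exact ⟨Finite.of_surjective _ hsurj, Nat.card_le_card_of_surjective _ hsurj⟩

section props

variable [IsLocalRing R] [IsLocalRing S]
  [IsAdicComplete (maximalIdeal R) R] [IsAdicComplete (maximalIdeal S) S]
  (hRfin : ∀ N, Finite (R ⧸ maximalIdeal R ^ N))
  (hSfin : ∀ k, Finite (S ⧸ maximalIdeal S ^ k))
  (𝔟 : ℕ → Ideal S) (h𝔟 : ∀ k, ∃ n₀, ∀ n, n₀ ≤ n → 𝔟 n ≤ maximalIdeal S ^ k)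
  (Θ : ∀ n, R →+* Matrix (Fin d) (Fin d) (S ⧸ 𝔟 n))
  (θ : R →+* Matrix (Fin d) (Fin d) S)
  (hθ : ∀ ρ k, ∀ᶠ n in (ihpU : Filter ℕ),
      ihpΦ (𝔟 n) (maximalIdeal S ^ k) (θ ρ) = ihpΨ (𝔟 n) (maximalIdeal S ^ k) (Θ n ρ))

include h𝔟 hθ in
/-- what all `Θ n` kill, the patched hom kills -/
theorem ihp_patch_ker {x : R} (hx : ∀ n, Θ n x = 0) : θ x = 0 := by
  apply ihp_matrix_eq_zero (maximalIdeal S) 𝔟 h𝔟
  intro k
  filter_upwards [hθ x k] with n hn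
  rw [hn, hx n, map_zero]

include h𝔟 hθ in
/-- if all `Θ n` send `x` to the scalar `s`, so does the patched hom -/
theorem ihp_patch_scalar {x : R} {s : S}
    (hx : ∀ n, Θ n x = Matrix.scalar (Fin d) (Ideal.Quotient.mk (𝔟 n) s)) :
    θ x = Matrix.scalar (Fin d) s := by
  apply ihp_matrix_ext (maximalIdeal S) 𝔟 h𝔟
  intro k
  filter_upwards [hθ x k] with n hn
  rw [hn, hx n, ihpΨ_scalar, ihpΦ_scalar]

include hSfin h𝔟 hθ in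
/-- if all `Θ n x` are divisible by `ϖ`, so is the patched value -/
theorem ihp_patch_dvd {x : R} {ϖ : S}
    (hx : ∀ n, ∃ Y : Matrix (Fin d) (Fin d) (S ⧸ 𝔟 n), Θ n x = Ideal.Quotient.mk (𝔟 n) ϖ • Y) :
    ∃ Y : Matrix (Fin d) (Fin d) S, θ x = ϖ • Y := by
  choose Yn hYn using hx
  obtain ⟨Y, hY⟩ := ihp_exists_matrix_ulim (maximalIdeal S) hSfin 𝔟 Yn
  refine ⟨Y, ?_⟩
  apply ihp_matrix_ext (maximalIdeal S) 𝔟 h𝔟
  intro k
  filter_upwards [hθ x k, hY k] with n hn hn'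
  rw [hn, hYn n, ihpΨ_smul, ihpΦ_smul, hn']

include hRfin hSfin h𝔟 hθ in
/-- if every scalar is in the image of every `Θ n`, it is in the image of the patched hom -/
theorem ihp_patch_surj_scalar (s : S)
    (hs : ∀ n, ∃ ρ : R, Θ n ρ = Matrix.scalar (Fin d) (Ideal.Quotient.mk (𝔟 n) s)) :
    ∃ ρ : R, θ ρ = Matrix.scalar (Fin d) s := by
  choose ρn hρn using hs
  obtain ⟨ρ, hρ⟩ := ihp_ulim (maximalIdeal R) hRfin ρn
  refine ⟨ρ, ?_⟩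
  apply ihp_matrix_ext (maximalIdeal S) 𝔟 h𝔟
  intro k
  haveI := hSfin k
  set N := Nat.card (Matrix (Fin d) (Fin d) (S ⧸ maximalIdeal S ^ k)) with hN
  filter_upwards [hθ ρ k, hρ N] with n hn hn'
  rw [hn, ihpΦ_scalar, ← ihpΨ_scalar, ← hρn n]
  obtain ⟨hfin, hcard⟩ := ihp_card_matrix_le (d := d) (𝔟 n) (maximalIdeal S ^ k)
  haveI := hfin
  have h1 := ihp_map_pow_eq_zero ((ihpΨ (𝔟 n) (maximalIdeal S ^ k)).comp (Θ n)) hcard hn'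
  rw [RingHom.comp_apply, map_sub, map_sub, sub_eq_zero] at h1
  exact h1.symm

end props

end Fermat.Agent.Ihara
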