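/-
IHARA / P (helper2), part 7: the abstract MASTER THEOREM of the Ihara-avoidance track, matrix form.

`R` (think `Λ[[x₁..x_g]]`, `Λ` = completed tensor product of the type-free framed local lifting
rings at the framed primes) and `S` (think `𝒪[[y₁..y_r, z₁..z_f]]`) are complete local rings with
finite quotients by the powers of their maximal ideals, `S` a domain with a nonzero element `ϖ`
(the uniformiser), `ϖR` its counterpart in `R`.  For every level `n` the type-`χ` patching datum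
is a ring hom `Θ n : R →+* Mat_d (S ⧸ 𝔟 n)` (the action of `R` on a module which is free of rank
`d` over `S ⧸ 𝔟 n`, in a basis), where the ideals `𝔟 n` tend to `0`.

Hypotheses: `Θ n` kills the type-`χ` ideal `J`; `ϖR` acts as `ϖ`; every scalar `s : S` is
the action of some `ρ : R` (this is `S → R□_{Q_n} ← R` with the second arrow onto); and `t`
acts by something divisible by `ϖ` (because `t` kills the type-`1` module, which is congruent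
to the type-`χ` module modulo `ϖ`).  Local input: `t` is not nilpotent modulo `ϖR` on any
component `𝔔 ⊇ J` of `R` of dimension `≥ dim S` not containing `ϖR`.  Conclusion: `False`.
-/
import Mathlib
import Fermat.Agent.Lib.Ihara.P.Patch2
import Fermat.Agent.Lib.Ihara.P.Core

set_option autoImplicit false
set_option linter.style.haveILetI false
set_option linter.unusedSectionVars false

namespace Fermat.Agent.Ihara

open IsLocalRing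

/-- **Master theorem, matrix form.** -/
theorem ihp_master_matrix
    {R S : Type*} [CommRing R] [CommRing S] [IsLocalRing R] [IsLocalRing S] [IsDomain S]
    [IsAdicComplete (maximalIdeal R) R] [IsAdicComplete (maximalIdeal S) S]
    (hRfin : ∀ N, Finite (R ⧸ maximalIdeal R ^ N))
    (hSfin : ∀ k, Finite (S ⧸ maximalIdeal S ^ k))
    {d : ℕ} (hd : 0 < d) (ϖ : S) (hϖ : ϖ ≠ 0) (ϖR t : R) (J : Ideal R)
    (𝔟 : ℕ → Ideal S) (h𝔟 : ∀ k, ∃ n₀, ∀ n, n₀ ≤ n → 𝔟 n ≤ maximalIdeal S ^ k)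
    (Θ : ∀ n, R →+* Matrix (Fin d) (Fin d) (S ⧸ 𝔟 n))
    (hJ : ∀ n, ∀ x ∈ J, Θ n x = 0)
    (hϖΘ : ∀ n, Θ n ϖR = Matrix.scalar (Fin d) (Ideal.Quotient.mk (𝔟 n) ϖ))
    (hsc : ∀ n (s : S), ∃ ρ : R, Θ n ρ = Matrix.scalar (Fin d) (Ideal.Quotient.mk (𝔟 n) s))
    (ht : ∀ n, ∃ Y : Matrix (Fin d) (Fin d) (S ⧸ 𝔟 n), Θ n t = Ideal.Quotient.mk (𝔟 n) ϖ • Y)
    (hL : ∀ 𝔔 : Ideal R, 𝔔.IsPrime → J ≤ 𝔔 → ϖR ∉ 𝔔 →
        ringKrullDim S ≤ ringKrullDim (R ⧸ 𝔔) → ∀ m, t ^ m ∉ 𝔔 ⊔ Ideal.span {ϖR}) : False := by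
  obtain ⟨θ, hθ⟩ := ihp_patch (maximalIdeal S) hSfin 𝔟 h𝔟 Θ
  exact ihp_core_limit hd ϖ hϖ ϖR t J θ
    (fun x hx => ihp_patch_ker 𝔟 h𝔟 Θ θ hθ (fun n => hJ n x hx))
    (ihp_patch_scalar 𝔟 h𝔟 Θ θ hθ hϖΘ)
    (ihp_patch_dvd hSfin 𝔟 h𝔟 Θ θ hθ ht)
    (fun s => ihp_patch_surj_scalar hRfin hSfin 𝔟 h𝔟 Θ θ hθ s (fun n => hsc n s))
    hL

/-- **Master theorem, two-sided matrix form**: `Θ₁ n` is the type-`1` action, `Θχ n` the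
type-`χ` action, congruent modulo `ϖ` (in compatible bases); `t` kills the type-`1` side. -/
theorem ihp_master_matrix₂
    {R S : Type*} [CommRing R] [CommRing S] [IsLocalRing R] [IsLocalRing S] [IsDomain S]
    [IsAdicComplete (maximalIdeal R) R] [IsAdicComplete (maximalIdeal S) S]
    (hRfin : ∀ N, Finite (R ⧸ maximalIdeal R ^ N))
    (hSfin : ∀ k, Finite (S ⧸ maximalIdeal S ^ k))
    {d : ℕ} (hd : 0 < d) (ϖ : S) (hϖ : ϖ ≠ 0) (ϖR t : R) (Jχ : Ideal R)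
    (𝔟 : ℕ → Ideal S) (h𝔟 : ∀ k, ∃ n₀, ∀ n, n₀ ≤ n → 𝔟 n ≤ maximalIdeal S ^ k)
    (Θ₁ Θχ : ∀ n, R →+* Matrix (Fin d) (Fin d) (S ⧸ 𝔟 n))
    (hJ : ∀ n, ∀ x ∈ Jχ, Θχ n x = 0)
    (hϖΘ : ∀ n, Θχ n ϖR = Matrix.scalar (Fin d) (Ideal.Quotient.mk (𝔟 n) ϖ))
    (hsc : ∀ n (s : S), ∃ ρ : R, Θχ n ρ = Matrix.scalar (Fin d) (Ideal.Quotient.mk (𝔟 n) s))
    (hcong : ∀ n, ∃ Y : Matrix (Fin d) (Fin d) (S ⧸ 𝔟 n),
        Θχ n t - Θ₁ n t = Ideal.Quotient.mk (𝔟 n) ϖ • Y)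
    (ht₁ : ∀ n, Θ₁ n t = 0)
    (hL : ∀ 𝔔 : Ideal R, 𝔔.IsPrime → Jχ ≤ 𝔔 → ϖR ∉ 𝔔 →
        ringKrullDim S ≤ ringKrullDim (R ⧸ 𝔔) → ∀ m, t ^ m ∉ 𝔔 ⊔ Ideal.span {ϖR}) : False := by
  refine ihp_master_matrix hRfin hSfin hd ϖ hϖ ϖR t Jχ 𝔟 h𝔟 Θχ hJ hϖΘ hsc (fun n => ?_) hL
  obtain ⟨Y, hY⟩ := hcong n
  rw [ht₁ n, sub_zero] at hY
  exact ⟨Y, hY⟩

/-- The local input `hL` of the master theorem from the usual package:
a prime `𝔭 ⊇ J` which is the only component of `V(J)` off `V(ϖR)`, of dimension `≤ dim S`,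
modulo which (and `ϖR`) `t` is not nilpotent. -/
theorem ihp_hL_of_prime
    {R S : Type*} [CommRing R] [CommRing S] [IsLocalRing R] [IsNoetherianRing R]
    (ϖR t : R) (J 𝔭 : Ideal R) [h𝔭 : 𝔭.IsPrime]
    (hG : ∀ 𝔔 : Ideal R, 𝔔.IsPrime → J ≤ 𝔔 → ϖR ∉ 𝔔 → 𝔭 ≤ 𝔔)
    (hdim : ringKrullDim (R ⧸ 𝔭) ≤ ringKrullDim S)
    (ht : ∀ m, t ^ m ∉ 𝔭 ⊔ Ideal.span {ϖR}) :
    ∀ 𝔔 : Ideal R, 𝔔.IsPrime → J ≤ 𝔔 → ϖR ∉ 𝔔 →
        ringKrullDim S ≤ ringKrullDim (R ⧸ 𝔔) → ∀ m, t ^ m ∉ 𝔔 ⊔ Ideal.span {ϖR} := by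
  intro 𝔔 h𝔔 hJ𝔔 hϖ𝔔 hdim𝔔
  have hle : 𝔭 ≤ 𝔔 := hG 𝔔 h𝔔 hJ𝔔 hϖ𝔔
  suffices h : 𝔔 = 𝔭 by
    rw [h]
    exact ht
  by_contra hne
  obtain ⟨x, hx𝔔, hx𝔭⟩ : ∃ x, x ∈ 𝔔 ∧ x ∉ 𝔭 := by
    by_contra hcon
    push Not at hcon
    exact hne (le_antisymm hcon hle)
  haveI : IsDomain (R ⧸ 𝔭) := Ideal.Quotient.isDomain 𝔭
  have h1 : ringKrullDim (R ⧸ 𝔔) + 1 ≤ ringKrullDim (R ⧸ 𝔭) := by
    refine ringKrullDim_succ_le_of_surjective (Ideal.Quotient.factor hle)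
      (Ideal.Quotient.factor_surjective hle) (r := Ideal.Quotient.mk 𝔭 x) ?_ ?_
    · rw [mem_nonZeroDivisors_iff_ne_zero, ne_eq, Ideal.Quotient.eq_zero_iff_mem]
      exact hx𝔭
    · rw [Ideal.Quotient.factor_mk, Ideal.Quotient.eq_zero_iff_mem]
      exact hx𝔔
  have h2 : ringKrullDim (R ⧸ 𝔔) + 1 ≤ ringKrullDim (R ⧸ 𝔔) :=
    h1.trans (hdim.trans hdim𝔔)
  have h3 : ringKrullDim (R ⧸ 𝔔) < ⊤ :=
    lt_of_le_of_lt (ringKrullDim_quotient_le 𝔔) ringKrullDim_lt_top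
  haveI : Nontrivial (R ⧸ 𝔔) := Ideal.Quotient.nontrivial_iff.mpr h𝔔.ne_top
  have h4 : (0 : WithBot ℕ∞) ≤ ringKrullDim (R ⧸ 𝔔) := ringKrullDim_nonneg_of_nontrivial
  generalize ringKrullDim (R ⧸ 𝔔) = a at h2 h3 h4
  induction a using WithBot.recBotCoe with
  | bot => simp at h4
  | coe a =>
    induction a using ENat.recTopCoe with
    | top => simp at h3
    | coe a =>
      have h5 : ((a + 1 : ℕ) : WithBot ℕ∞) ≤ (a : WithBot ℕ∞) := by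
        exact_mod_cast h2
      have h6 : a + 1 ≤ a := by exact_mod_cast h5
      omega

/-- The non-nilpotency part of the local input from a point: a ring hom `π` to a domain `D`
killing `J` with `π ϖR ≠ 0` and `π t ^ m ∉ (π ϖR)`. -/
theorem ihp_ht_of_point
    {R D : Type*} [CommRing R] [CommRing D] [IsDomain D]
    (ϖR t : R) (J 𝔭 : Ideal R)
    (hG : ∀ 𝔔 : Ideal R, 𝔔.IsPrime → J ≤ 𝔔 → ϖR ∉ 𝔔 → 𝔭 ≤ 𝔔)
    (π : R →+* D) (hπJ : ∀ x ∈ J, π x = 0) (hπϖ : π ϖR ≠ 0)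
    (hπt : ∀ m, ¬ π ϖR ∣ π t ^ m) :
    ∀ m, t ^ m ∉ 𝔭 ⊔ Ideal.span {ϖR} := by
  intro m hm
  have hker : 𝔭 ≤ RingHom.ker π :=
    hG (RingHom.ker π) (RingHom.ker_isPrime π) (fun x hx => (RingHom.mem_ker).mpr (hπJ x hx))
      (fun h => hπϖ ((RingHom.mem_ker).mp h))
  obtain ⟨y, hy, z, hz, hyz⟩ := Submodule.mem_sup.mp hm
  obtain ⟨w, rfl⟩ := Ideal.mem_span_singleton'.mp hz
  apply hπt m
  rw [← map_pow, ← hyz, map_add, (RingHom.mem_ker).mp (hker hy), zero_add, map_mul]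
  exact Dvd.intro_left _ rfl

end Fermat.Agent.Ihara
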