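/-
IHARA / P (helper2), part 8: convenience forms of the master theorem and small tools for the
assembler.

* `ihp_master_matrix'` : the target rings are arbitrary quotients `π n : S →+* B n` (surjective).
* `ihp_one_add_pow_sub_one_mem` : `(1 + y)^(p^n) - 1 ∈ 𝔪^(n+1)` when `p, y ∈ 𝔪`.
* `ihp_ringKrullDim_mvPowerSeries_ge` : `dim A + m ≤ dim A[[X_1..X_m]]`.
-/
import Mathlib
import Fermat.Agent.Lib.Ihara.P.Main

set_option autoImplicit false
set_option linter.style.haveILetI false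
set_option linter.unusedSectionVars false

namespace Fermat.Agent.Ihara

open IsLocalRing

/-- **Master theorem, matrix form, arbitrary quotients `B n` of `S`.** -/
theorem ihp_master_matrix'
    {R S : Type*} [CommRing R] [CommRing S] [IsLocalRing R] [IsLocalRing S] [IsDomain S]
    [IsAdicComplete (maximalIdeal R) R] [IsAdicComplete (maximalIdeal S) S]
    (hRfin : ∀ N, Finite (R ⧸ maximalIdeal R ^ N))
    (hSfin : ∀ k, Finite (S ⧸ maximalIdeal S ^ k))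
    {d : ℕ} (hd : 0 < d) (ϖ : S) (hϖ : ϖ ≠ 0) (ϖR t : R) (J : Ideal R)
    {B : ℕ → Type*} [∀ n, CommRing (B n)] (π : ∀ n, S →+* B n)
    (hπ : ∀ n, Function.Surjective (π n))
    (h𝔟 : ∀ k, ∃ n₀, ∀ n, n₀ ≤ n → RingHom.ker (π n) ≤ maximalIdeal S ^ k)
    (Θ : ∀ n, R →+* Matrix (Fin d) (Fin d) (B n))
    (hJ : ∀ n, ∀ x ∈ J, Θ n x = 0)
    (hϖΘ : ∀ n, Θ n ϖR = Matrix.scalar (Fin d) (π n ϖ))
    (hsc : ∀ n (s : S), ∃ ρ : R, Θ n ρ = Matrix.scalar (Fin d) (π n s))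
    (ht : ∀ n, ∃ Y : Matrix (Fin d) (Fin d) (B n), Θ n t = π n ϖ • Y)
    (hL : ∀ 𝔔 : Ideal R, 𝔔.IsPrime → J ≤ 𝔔 → ϖR ∉ 𝔔 →
        ringKrullDim S ≤ ringKrullDim (R ⧸ 𝔔) → ∀ m, t ^ m ∉ 𝔔 ⊔ Ideal.span {ϖR}) : False := by
  -- transport along `S ⧸ ker (π n) ≃+* B n`
  let e : ∀ n, (S ⧸ RingHom.ker (π n)) ≃+* B n :=
    fun n => RingHom.quotientKerEquivOfSurjective (hπ n)
  have he : ∀ n s, (e n).symm (π n s) = Ideal.Quotient.mk (RingHom.ker (π n)) s := by
    intro n s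
    rw [RingEquiv.symm_apply_eq]
    rfl
  let Θ' : ∀ n, R →+* Matrix (Fin d) (Fin d) (S ⧸ RingHom.ker (π n)) :=
    fun n => ((e n).symm.toRingHom.mapMatrix).comp (Θ n)
  have hmapsc : ∀ n (b : B n), (e n).symm.toRingHom.mapMatrix (Matrix.scalar (Fin d) b) =
      Matrix.scalar (Fin d) ((e n).symm b) := by
    intro n b
    ext i j
    by_cases h : i = j
    · subst h
      simp
    · simp [h]
  refine ihp_master_matrix hRfin hSfin hd ϖ hϖ ϖR t J (fun n => RingHom.ker (π n)) h𝔟 Θ'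
    ?_ ?_ ?_ ?_ hL
  · intro n x hx
    change (e n).symm.toRingHom.mapMatrix (Θ n x) = 0
    rw [hJ n x hx, map_zero]
  · intro n
    change (e n).symm.toRingHom.mapMatrix (Θ n ϖR) = _
    rw [hϖΘ n, hmapsc, he]
  · intro n s
    obtain ⟨ρ, hρ⟩ := hsc n s
    refine ⟨ρ, ?_⟩
    change (e n).symm.toRingHom.mapMatrix (Θ n ρ) = _
    rw [hρ, hmapsc, he]
  · intro n
    obtain ⟨Y, hY⟩ := ht n
    refine ⟨(e n).symm.toRingHom.mapMatrix Y, ?_⟩
    change (e n).symm.toRingHom.mapMatrix (Θ n t) = _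
    rw [hY]
    ext i j
    simp only [RingHom.mapMatrix_apply, Matrix.map_apply, Matrix.smul_apply, smul_eq_mul,
      RingEquiv.toRingHom_eq_coe, RingHom.coe_coe, map_mul, he]

/-- `(1 + y)^(p^n) ≡ 1` modulo `𝔪^(n+1)` when `p` and `y` lie in the ideal `𝔪` -/
theorem ihp_one_add_pow_sub_one_mem {S : Type*} [CommRing S] (𝔪 : Ideal S) {p : ℕ}
    (hp : (p : S) ∈ 𝔪) {y : S} (hy : y ∈ 𝔪) (n : ℕ) :
    (1 + y) ^ p ^ n - 1 ∈ 𝔪 ^ (n + 1) := by
  induction n with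
  | zero => simpa using hy
  | succ n ih =>
    set x := (1 + y) ^ p ^ n with hx
    have h1 : (1 + y) ^ p ^ (n + 1) - 1 = (∑ i ∈ Finset.range p, x ^ i) * (x - 1) := by
      rw [geom_sum_mul, hx, ← pow_mul, pow_succ]
    have h2 : (∑ i ∈ Finset.range p, x ^ i) ∈ 𝔪 := by
      rw [← Ideal.Quotient.eq_zero_iff_mem, map_sum]
      have hx1 : Ideal.Quotient.mk 𝔪 x = 1 := by
        have h3 : x - 1 ∈ 𝔪 := Ideal.pow_le_self (Nat.succ_ne_zero n) ih
        rw [← sub_eq_zero, ← map_one (Ideal.Quotient.mk 𝔪), ← map_sub,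
          Ideal.Quotient.eq_zero_iff_mem]
        exact h3
      simp only [map_pow, hx1, one_pow, Finset.sum_const, Finset.card_range, nsmul_eq_mul,
        mul_one]
      rw [← map_natCast (Ideal.Quotient.mk 𝔪), Ideal.Quotient.eq_zero_iff_mem]
      exact hp
    rw [h1, pow_succ' 𝔪 (n + 1)]
    exact Ideal.mul_mem_mul h2 ih

/-- the easy direction of the dimension formula for power series rings -/
theorem ihp_ringKrullDim_mvPowerSeries_ge (A : Type*) [CommRing A] (m : ℕ) :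
    ringKrullDim A + m ≤ ringKrullDim (MvPowerSeries (Fin m) A) := by
  induction m with
  | zero =>
    rw [Nat.cast_zero, add_zero]
    exact le_of_eq (ringKrullDim_eq_of_ringEquiv
      (MvPowerSeries.isEmptyEquiv (σ := Fin 0) (R := A)).toRingEquiv).symm
  | succ m ih =>
    have h1 : ringKrullDim (MvPowerSeries (Fin (m + 1)) A) =
        ringKrullDim (PowerSeries (MvPowerSeries (Fin m) A)) :=
      ringKrullDim_eq_of_ringEquiv (MvPowerSeries.finSuccEquiv A m).toRingEquiv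
    rw [h1]
    refine le_trans ?_ ringKrullDim_succ_le_ringKrullDim_powerseries
    rw [Nat.cast_succ, ← add_assoc]
    gcongr

/-- for a domain `𝒪` that is not a field, `m + 1 ≤ dim 𝒪[[X_1..X_m]]` -/
theorem ihp_ringKrullDim_mvPowerSeries_ge_succ (𝒪 : Type*) [CommRing 𝒪] [IsDomain 𝒪]
    (h𝒪 : ¬ IsField 𝒪) (m : ℕ) :
    ((m + 1 : ℕ) : WithBot ℕ∞) ≤ ringKrullDim (MvPowerSeries (Fin m) 𝒪) := by
  refine le_trans ?_ (ihp_ringKrullDim_mvPowerSeries_ge 𝒪 m)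
  have h1 : (1 : WithBot ℕ∞) ≤ ringKrullDim 𝒪 := by
    have h2 : ¬ ringKrullDim 𝒪 ≤ 0 := fun h => h𝒪 (by
      haveI : Ring.KrullDimLE 0 𝒪 := Ring.krullDimLE_iff.mpr h
      exact Ring.KrullDimLE.isField_of_isDomain)
    exact Order.succ_le_of_lt (lt_of_not_ge h2)
  rw [Nat.cast_add, Nat.cast_one, add_comm]
  gcongr

end Fermat.Agent.Ihara
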