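/-
IHARA / P (helper2), part 10: the **inertia-freeness lemma**.

`M` a finite module over a local ring `𝒪` (`p ∈ 𝔪`, no `p`-torsion), `x`, `a` commuting
automorphisms of order dividing `p^c`.  If `M` is relatively projective for `⟨x⟩`
(`∑_{k<p^c} x^k e x^(-k) = 1`, e.g. `M` free over `𝒪[X]/(X^(p^c) - 1)`), `(a - 1) M ⊆ (x - 1) M`
(SC) and `a` has no fixed vector on `ker Φ_p(x)` (WL), then `(x - 1) M ⊆ (a - 1) M`
(`ihp_inertia`).  Application: `x` = diamond operator at a Taylor-Wiles prime `q`, `a` = scalar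
by which a generator of tame inertia at `q` acts on the Frobenius-`α` eigenline.
-/
import Mathlib

set_option autoImplicit false
set_option linter.unusedSectionVars false
set_option linter.unusedVariables false
set_option linter.style.haveILetI false
set_option linter.unusedSimpArgs false

namespace Fermat.Agent.Ihara

open Finset Polynomial IsLocalRing
open scoped IsMulCommutative

/-- the polynomial `r_p` with `Φ_p(1 + X) = p + p X r_p(X) + X^(p-1)` -/
noncomputable def ihpiR (p : ℕ) : ℤ[X] :=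
  ∑ j ∈ range (p - 2), C (((p.choose (j + 2) / p : ℕ) : ℤ)) * X ^ j

theorem ihpi_poly {p : ℕ} (hp : p.Prime) (hp2 : 2 < p) :
    (∑ i ∈ range p, (X : ℤ[X]) ^ i).comp (X + 1)
      = C (p : ℤ) + C (p : ℤ) * X * ihpiR p + X ^ (p - 1) := by
  obtain ⟨n, rfl⟩ : ∃ n, p = n + 2 := ⟨p - 2, by omega⟩
  rw [geom_sum_X_comp_X_add_one_eq_sum, Finset.sum_range_succ, Finset.sum_range_succ']
  simp only [Nat.choose_self, Nat.cast_one, one_mul, zero_add, Nat.choose_one_right, pow_zero,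
    mul_one]
  have h1 : n + 2 - 1 = n + 1 := by omega
  rw [h1, ihpiR, Nat.add_sub_cancel, Finset.mul_sum]
  have h2 : ∀ j ∈ range n, (((n + 2).choose (j + 1 + 1) : ℕ) : ℤ[X]) * X ^ (j + 1)
      = C ((n + 2 : ℕ) : ℤ) * X * (C ((((n + 2).choose (j + 2) / (n + 2) : ℕ)) : ℤ) * X ^ j) := by
    intro j hj
    have hj' : j < n := Finset.mem_range.mp hj
    have hdvd : (n + 2) ∣ (n + 2).choose (j + 2) :=
      hp.dvd_choose_self (by omega) (by omega)
    obtain ⟨k, hk⟩ := hdvd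
    rw [hk, Nat.mul_div_cancel_left _ (by omega : 0 < n + 2)]
    simp only [map_natCast]
    push_cast
    ring
  rw [Finset.sum_congr rfl h2]
  simp only [map_natCast]
  push_cast
  ring

/-- in any ring: `Φ_p(1 + z) = p + p z r_p(z) + z^(p-1)` -/
theorem ihpi_geom_sum_eq {R : Type*} [Ring R] {p : ℕ} (hp : p.Prime) (hp2 : 2 < p) (z : R) :
    ∑ i ∈ range p, (z + 1) ^ i
      = (p : R) + (p : R) * z * aeval z (ihpiR p) + z ^ (p - 1) := by
  have h1 := congrArg (aeval z) (ihpi_poly hp hp2)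
  rw [aeval_comp] at h1
  simpa only [map_sum, map_pow, aeval_X, map_add, map_one, map_mul, aeval_C, map_natCast,
    eq_intCast, Int.cast_natCast] using h1

/-- in any ring: if `Φ_p(1 + z) = 0` then `z^(p-1) = -p (1 + z r_p(z))` -/
theorem ihpi_pow_eq {R : Type*} [Ring R] {p : ℕ} (hp : p.Prime) (hp2 : 2 < p) (z : R)
    (h : ∑ i ∈ range p, (z + 1) ^ i = 0) :
    z ^ (p - 1) = -((p : R) * (1 + z * aeval z (ihpiR p))) := by
  have h1 := ihpi_geom_sum_eq hp hp2 z
  rw [h] at h1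
  have h2 : z ^ (p - 1) = -((p : R) + (p : R) * z * aeval z (ihpiR p)) := by
    rw [eq_neg_iff_add_eq_zero, add_comm]
    exact h1.symm
  rw [h2, mul_add, mul_one, mul_assoc]

/-- `(X - 1)^(p^c) = X^(p^c) - 1 + p H` -/
theorem ihpi_sub_one_pow {p : ℕ} (hp : p.Prime) (c : ℕ) :
    ∃ H : ℤ[X], ((X : ℤ[X]) - 1) ^ (p ^ c) = X ^ (p ^ c) - 1 + C (p : ℤ) * H := by
  haveI : Fact p.Prime := ⟨hp⟩
  have hdvd : C (p : ℤ) ∣ ((X : ℤ[X]) - 1) ^ (p ^ c) - (X ^ (p ^ c) - 1) := by
    rw [C_dvd_iff_dvd_coeff]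
    intro i
    rw [← ZMod.intCast_zmod_eq_zero_iff_dvd]
    have : (((((X : ℤ[X]) - 1) ^ (p ^ c) - (X ^ (p ^ c) - 1)).coeff i : ℤ) : ZMod p)
        = ((((X : ℤ[X]) - 1) ^ (p ^ c) - (X ^ (p ^ c) - 1)).map
            (Int.castRingHom (ZMod p))).coeff i := by
      rw [coeff_map]; rfl
    rw [this]
    simp only [Polynomial.map_sub, Polynomial.map_pow, Polynomial.map_X, Polynomial.map_one]
    rw [sub_pow_char_pow, one_pow, sub_self, coeff_zero]
  obtain ⟨H, hH⟩ := hdvd
  exact ⟨H, by rw [← hH]; ring⟩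

theorem ihpi_sub_one_pow_apply {R : Type*} [Ring R] {p : ℕ} (hp : p.Prime) (c : ℕ) (x : R)
    (hx : x ^ (p ^ c) = 1) : ∃ h : R, Commute h x ∧ (x - 1) ^ (p ^ c) = (p : R) * h := by
  obtain ⟨H, hH⟩ := ihpi_sub_one_pow hp c
  refine ⟨aeval x H, ?_, ?_⟩
  · have := (Commute.all H X).map (aeval x)
    rwa [aeval_X] at this
  · have := congrArg (aeval x) hH
    simpa [hx] using this

section Alg

variable {B : Type*} [CommRing B]

/-- **the algebraic heart**: in a commutative ring `B` with `Φ_p(x) = 0`, `a = 1 + (x - 1) e`,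
`a^(p^c) = 1`, if `p`, `a - 1` and all `1 + (x - 1) g` are regular, then `e` divides some
`1 + (x - 1) g`. -/
theorem ihpi_alg {p : ℕ} (hp : p.Prime) (hp2 : 2 < p) (x e : B) {c : ℕ} (hc : 0 < c)
    (hΦ : ∑ i ∈ range p, x ^ i = 0) (ha : (1 + (x - 1) * e) ^ (p ^ c) = 1)
    (regp : ∀ z : B, (p : B) * z = 0 → z = 0)
    (regwl : ∀ z : B, ((1 + (x - 1) * e) - 1) * z = 0 → z = 0)
    (reg1 : ∀ g z : B, (1 + (x - 1) * g) * z = 0 → z = 0) :
    ∃ g u : B, 1 + (x - 1) * g = e * u := by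
  set π : B := x - 1 with hπ
  set a : B := 1 + π * e with ha'
  set rx : B := aeval π (ihpiR p) with hrx
  have hπpow : π ^ (p - 1) = -((p : B) * (1 + π * rx)) := by
    refine ihpi_pow_eq hp hp2 π ?_
    have : π + 1 = x := by rw [hπ]; ring
    rw [this]
    exact hΦ
  have hp_eq : (p : B) = π * (-((p : B) * rx + π ^ (p - 2))) := by
    have hsplit : π ^ (p - 1) = π * π ^ (p - 2) := by
      rw [← pow_succ']
      congr 1
      omega
    rw [hsplit] at hπpow
    linear_combination hπpow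
  set vx : B := 1 + π * rx with hvx
  set t : B := -((p : B) * rx + π ^ (p - 2)) with ht
  have ha1 : a - 1 = π * e := by rw [ha']; ring
  -- `a^(p^j) ≡ 1 mod π²` for `j ≥ 1`
  have hsq : ∀ j : ℕ, 1 ≤ j → ∃ g : B, a ^ (p ^ j) - 1 = π ^ 2 * g := by
    intro j hj
    obtain ⟨m, hm⟩ : ∃ m, p ^ j = p * m := ⟨p ^ (j - 1), by
      rw [← pow_succ']
      congr 1
      omega⟩
    have h1 : a ^ (p ^ j) - 1 = (a - 1) * ∑ i ∈ range (p ^ j), a ^ i :=
      (mul_geom_sum a (p ^ j)).symm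
    have h2 : ∀ i : ℕ, a ^ i = 1 + (a - 1) * ∑ l ∈ range i, a ^ l := fun i => by
      rw [mul_geom_sum]; ring
    set h : B := ∑ i ∈ range (p ^ j), ∑ l ∈ range i, a ^ l with hh
    have h3 : ∑ i ∈ range (p ^ j), a ^ i = ((p ^ j : ℕ) : B) + (a - 1) * h := by
      calc ∑ i ∈ range (p ^ j), a ^ i
          = ∑ i ∈ range (p ^ j), (1 + (a - 1) * ∑ l ∈ range i, a ^ l) :=
            Finset.sum_congr rfl (fun i _ => h2 i)
        _ = _ := by
            rw [Finset.sum_add_distrib, Finset.sum_const, Finset.card_range, nsmul_eq_mul, mul_one,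
              ← Finset.mul_sum]
    refine ⟨e * (t * (m : B) + e * h), ?_⟩
    rw [h1, h3, ha1, hm, Nat.cast_mul]
    linear_combination (π * e * (m : B)) * hp_eq
  have hstep : ∀ j : ℕ, 1 ≤ j → a ^ (p ^ (j + 1)) = 1 → a ^ (p ^ j) = 1 := by
    intro j hj hb
    obtain ⟨g, hg⟩ := hsq j hj
    set b : B := a ^ (p ^ j) with hbdef
    set z : B := π ^ 2 * g with hz
    have hbz : b = z + 1 := by rw [← hg]; ring
    have h1 : (b - 1) * ∑ i ∈ range p, b ^ i = 0 := by
      rw [mul_geom_sum, hbdef, ← pow_mul, ← pow_succ, hb, sub_self]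
    have h2 := ihpi_geom_sum_eq hp hp2 z
    set rz : B := aeval z (ihpiR p) with hrz
    have h3 : z ^ (p - 1) = (p : B) * (π * (t * vx ^ 2 * g ^ (p - 1))) := by
      have e1 : z ^ (p - 1) = (π ^ (p - 1)) ^ 2 * g ^ (p - 1) := by
        rw [hz, mul_pow, ← pow_mul, ← pow_mul, mul_comm 2 (p - 1)]
      rw [e1, hπpow]
      linear_combination ((p : B) * vx ^ 2 * g ^ (p - 1)) * hp_eq
    have h4 : ∑ i ∈ range p, b ^ i
        = (p : B) * (1 + π * (π * g * rz + t * vx ^ 2 * g ^ (p - 1))) := by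
      rw [hbz, h2, h3, hz]
      ring
    rw [h4] at h1
    have h5 : (1 + π * (π * g * rz + t * vx ^ 2 * g ^ (p - 1))) * (b - 1) = 0 :=
      regp _ (by linear_combination h1)
    exact sub_eq_zero.mp (reg1 _ _ h5)
  have hdesc : ∀ k : ℕ, k + 1 ≤ c → a ^ (p ^ (c - k)) = 1 := by
    intro k
    induction k with
    | zero =>
      intro _
      rw [Nat.sub_zero]
      exact ha
    | succ k ih =>
      intro hk
      have h1 := ih (by omega)
      have e : c - k = (c - (k + 1)) + 1 := by omega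
      rw [e] at h1
      exact hstep _ (by omega) h1
  have hap : a ^ p = 1 := by
    have h1 := hdesc (c - 1) (by omega)
    have e : c - (c - 1) = 1 := by omega
    rw [e, pow_one] at h1
    exact h1
  have hΦa : ∑ i ∈ range p, a ^ i = 0 := regwl _ (by rw [mul_geom_sum, hap, sub_self])
  set za : B := a - 1 with hza
  have h1 := ihpi_pow_eq hp hp2 za (by
    have : za + 1 = a := by rw [hza]; ring
    rw [this]; exact hΦa)
  set ra : B := aeval za (ihpiR p) with hra
  have h2 : za ^ (p - 1) = -((p : B) * (vx * e ^ (p - 1))) := by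
    rw [ha1, mul_pow, hπpow]
    ring
  have h3 : 1 + za * ra = vx * e ^ (p - 1) := by
    have h : (p : B) * ((1 + za * ra) - vx * e ^ (p - 1)) = 0 := by
      linear_combination h1 - h2
    exact sub_eq_zero.mp (regp _ h)
  refine ⟨e * ra, e ^ (p - 2) * vx, ?_⟩
  have e1 : (1 + π * (e * ra) : B) = 1 + za * ra := by
    rw [ha1]; ring
  have e2 : e ^ (p - 1) = e * e ^ (p - 2) := by
    rw [← pow_succ']
    congr 1
    omega
  rw [e1, h3, e2]
  ring

end Alg

section Core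

variable {𝒪 : Type*} [CommRing 𝒪] [IsLocalRing 𝒪]
  {W : Type*} [AddCommGroup W] [Module 𝒪 W] [Module.Finite 𝒪 W]

/-- Nakayama: `f` is surjective if `f ∘ g ≡ 1` modulo `𝔪` -/
theorem ihpi_surjective_of_comp (f g : Module.End 𝒪 W)
    (h : ∀ v, f (g v) - v ∈ (maximalIdeal 𝒪 • ⊤ : Submodule 𝒪 W)) : Function.Surjective f := by
  have h1 : (⊤ : Submodule 𝒪 W) ≤ LinearMap.range f ⊔ maximalIdeal 𝒪 • ⊤ := by
    intro v _
    have e : v = f (g v) - (f (g v) - v) := by abel
    rw [e]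
    exact Submodule.sub_mem _ (Submodule.mem_sup_left ⟨g v, rfl⟩) (Submodule.mem_sup_right (h v))
  have h2 := Submodule.le_of_le_smul_of_le_jacobson_bot (Module.Finite.fg_top)
    (maximalIdeal_le_jacobson ⊥) h1
  intro v
  exact h2 (Submodule.mem_top)

/-- **core of the inertia-freeness lemma**, on the part where `x` has order `p` -/
theorem ihpi_core {p : ℕ} (hp : p.Prime) (hp2 : 2 < p) (hp𝔪 : (p : 𝒪) ∈ maximalIdeal 𝒪)
    (htf : ∀ v : W, (p : 𝒪) • v = 0 → v = 0)
    (x a : Module.End 𝒪 W) (hxa : Commute x a)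
    (hΦ : ∑ i ∈ range p, x ^ i = 0) (c : ℕ) (ha : a ^ (p ^ c) = 1)
    (hsc : ∀ v, ∃ w, a v - v = x w - w)
    (hwl : ∀ v, a v = v → v = 0) :
    ∀ v, ∃ w, x v - v = a w - w := by
  classical
  have happ : ∀ (f : Module.End 𝒪 W) (v : W), (f - 1 : Module.End 𝒪 W) v = f v - v := by
    intro f v; simp
  rcases Nat.eq_zero_or_pos c with rfl | hc
  · -- `a = 1`, hence `W = 0`
    have ha1 : a = 1 := by simpa using ha
    intro v
    have hv : v = 0 := hwl v (by rw [ha1]; rfl)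
    exact ⟨0, by rw [hv]; simp⟩
  -- `π = x - 1` is injective
  have hπinj : Function.Injective (x - 1 : Module.End 𝒪 W) := by
    rw [injective_iff_map_eq_zero]
    intro v hv
    have hxv : x v = v := by
      rw [happ] at hv
      exact sub_eq_zero.mp hv
    have hpow : ∀ i : ℕ, (x ^ i) v = v := by
      intro i
      induction i with
      | zero => simp
      | succ i ih => rw [pow_succ, Module.End.mul_apply, hxv, ih]
    have h1 := congrArg (fun f : Module.End 𝒪 W => f v) hΦ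
    simp only [LinearMap.sum_apply, hpow, Finset.sum_const, Finset.card_range,
      LinearMap.zero_apply] at h1
    exact htf v (by rw [Nat.cast_smul_eq_nsmul]; exact h1)
  -- the endomorphism `e` with `π e = a - 1`
  let E := LinearEquiv.ofInjective (x - 1 : Module.End 𝒪 W) hπinj
  let e : Module.End 𝒪 W := E.symm.toLinearMap ∘ₗ
    (a - 1 : Module.End 𝒪 W).codRestrict (LinearMap.range (x - 1 : Module.End 𝒪 W)) (fun v => by
      obtain ⟨w, hw⟩ := hsc v
      exact ⟨w, by rw [happ, happ, hw]⟩)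
  have he : ∀ v, (x - 1 : Module.End 𝒪 W) (e v) = (a - 1 : Module.End 𝒪 W) v := by
    intro v
    have h1 : E (e v) = (a - 1 : Module.End 𝒪 W).codRestrict
        (LinearMap.range (x - 1 : Module.End 𝒪 W)) _ v :=
      E.apply_symm_apply _
    have h2 := congrArg Subtype.val h1
    simpa [E] using h2
  have heq : (x - 1) * e = a - 1 := LinearMap.ext he
  have hcancel : ∀ z : Module.End 𝒪 W, (x - 1) * z = 0 → z = 0 := by
    intro z hz
    refine LinearMap.ext fun v => hπinj ?_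
    have := congrArg (fun f : Module.End 𝒪 W => f v) hz
    simpa using this
  have hxe : x * e = e * x := by
    have hx1 : Commute (x - 1) x := (Commute.refl x).sub_left (Commute.one_left x)
    have ha1 : Commute (a - 1) x := (hxa.symm).sub_left (Commute.one_left x)
    have h1 : (x - 1) * (x * e - e * x) = 0 := by
      rw [mul_sub, ← mul_assoc, hx1.eq, mul_assoc, heq, ← mul_assoc, heq, ha1.eq, sub_self]
    exact sub_eq_zero.mp (hcancel _ h1)
  -- the commutative algebra generated by `x` and `e`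
  set s : Set (Module.End 𝒪 W) := {x, e} with hs
  have hcomm : ∀ u ∈ s, ∀ v ∈ s, u * v = v * u := by
    intro u hu v hv
    rcases hu with rfl | rfl <;> rcases hv with rfl | rfl
    · rfl
    · exact hxe
    · exact hxe.symm
    · rfl
  haveI hmc : IsMulCommutative ↥(Algebra.adjoin 𝒪 s) := Algebra.isMulCommutative_adjoin 𝒪 hcomm
  letI : CommRing ↥(Algebra.adjoin 𝒪 s) := inferInstance
  set xB : ↥(Algebra.adjoin 𝒪 s) := ⟨x, Algebra.subset_adjoin (by simp [hs])⟩ with hxB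
  set eB : ↥(Algebra.adjoin 𝒪 s) := ⟨e, Algebra.subset_adjoin (by simp [hs])⟩ with heB
  have hcoe_a : ((1 + (xB - 1) * eB : ↥(Algebra.adjoin 𝒪 s)) : Module.End 𝒪 W) = a := by
    show (1 : Module.End 𝒪 W) + (x - 1) * e = a
    rw [heq]; abel
  -- zero test
  have hzero : ∀ z : ↥(Algebra.adjoin 𝒪 s), (∀ v, (z : Module.End 𝒪 W) v = 0) → z = 0 :=
    fun z hz => Subtype.ext (LinearMap.ext hz)
  have hmulapp : ∀ (z w : ↥(Algebra.adjoin 𝒪 s)) (v : W),
      ((z * w : ↥(Algebra.adjoin 𝒪 s)) : Module.End 𝒪 W) v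
        = (z : Module.End 𝒪 W) ((w : Module.End 𝒪 W) v) := fun z w v => rfl
  have hnatapp : ∀ (n : ℕ) (v : W),
      (((n : ↥(Algebra.adjoin 𝒪 s)) : Module.End 𝒪 W)) v = (n : 𝒪) • v := by
    intro n v
    have : (((n : ↥(Algebra.adjoin 𝒪 s)) : Module.End 𝒪 W)) = (n : Module.End 𝒪 W) := by
      simp
    rw [this, Nat.cast_smul_eq_nsmul]
    simp
  have hcoe_pow : ∀ (z : ↥(Algebra.adjoin 𝒪 s)) (n : ℕ),
      ((z ^ n : ↥(Algebra.adjoin 𝒪 s)) : Module.End 𝒪 W) = (z : Module.End 𝒪 W) ^ n :=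
    fun z n => rfl
  have hΦB : ∑ i ∈ range p, xB ^ i = 0 := by
    apply Subtype.ext
    have h1 : ((∑ i ∈ range p, xB ^ i : ↥(Algebra.adjoin 𝒪 s)) : Module.End 𝒪 W)
        = ∑ i ∈ range p, x ^ i := by
      rw [AddSubmonoidClass.coe_finsetSum]
      rfl
    rw [h1, hΦ]
    rfl
  have haBpow : (1 + (xB - 1) * eB) ^ (p ^ c) = 1 := by
    apply Subtype.ext
    rw [hcoe_pow, hcoe_a, ha]
    rfl
  have regp : ∀ z : ↥(Algebra.adjoin 𝒪 s), (p : ↥(Algebra.adjoin 𝒪 s)) * z = 0 → z = 0 := by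
    intro z hz
    refine hzero z fun v => htf _ ?_
    have h1 := congrArg (fun f : ↥(Algebra.adjoin 𝒪 s) => (f : Module.End 𝒪 W) v) hz
    simp only [hmulapp] at h1
    rw [hnatapp] at h1
    exact h1
  have regwl : ∀ z : ↥(Algebra.adjoin 𝒪 s), ((1 + (xB - 1) * eB) - 1) * z = 0 → z = 0 := by
    intro z hz
    refine hzero z fun v => hwl _ ?_
    have h1 := congrArg (fun f : ↥(Algebra.adjoin 𝒪 s) => (f : Module.End 𝒪 W) v) hz
    have h2 : (((1 + (xB - 1) * eB) - 1 : ↥(Algebra.adjoin 𝒪 s)) : Module.End 𝒪 W) = a - 1 := by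
      rw [← hcoe_a]; rfl
    simp only [hmulapp, h2] at h1
    have h3 : a ((z : Module.End 𝒪 W) v) - (z : Module.End 𝒪 W) v = 0 := by simpa using h1
    exact sub_eq_zero.mp h3
  -- `π^(p-1) = -p vx`
  have hπpow : (xB - 1) ^ (p - 1) = -((p : ↥(Algebra.adjoin 𝒪 s))
      * (1 + (xB - 1) * aeval (xB - 1) (ihpiR p))) := by
    refine ihpi_pow_eq hp hp2 (xB - 1) ?_
    have : xB - 1 + 1 = xB := by ring
    rw [this]
    exact hΦB
  -- surjectivity of `1 + π g`
  have hsurj : ∀ g : ↥(Algebra.adjoin 𝒪 s),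
      Function.Surjective ((1 + (xB - 1) * g : ↥(Algebra.adjoin 𝒪 s)) : Module.End 𝒪 W) := by
    intro g
    set y : ↥(Algebra.adjoin 𝒪 s) := -((xB - 1) * g) with hy
    set g₂ : ↥(Algebra.adjoin 𝒪 s) := ∑ k ∈ range (p - 1), y ^ k with hg₂
    have h1 : (1 + (xB - 1) * g) * g₂ = 1 - y ^ (p - 1) := by
      have := mul_neg_geom_sum y (p - 1)
      rw [hy, sub_neg_eq_add] at this
      rw [hg₂, hy]
      exact this
    obtain ⟨sB, h2⟩ : ∃ sB : ↥(Algebra.adjoin 𝒪 s),
        y ^ (p - 1) = (p : ↥(Algebra.adjoin 𝒪 s)) * sB := by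
      refine ⟨-((1 + (xB - 1) * aeval (xB - 1) (ihpiR p)) * (-g) ^ (p - 1)), ?_⟩
      have e1 : y = (xB - 1) * (-g) := by rw [hy]; ring
      rw [e1, mul_pow, hπpow]
      ring
    refine ihpi_surjective_of_comp _ (g₂ : Module.End 𝒪 W) fun v => ?_
    have h3 : ((1 + (xB - 1) * g : ↥(Algebra.adjoin 𝒪 s)) : Module.End 𝒪 W)
        ((g₂ : Module.End 𝒪 W) v)
        = (((1 + (xB - 1) * g) * g₂ : ↥(Algebra.adjoin 𝒪 s)) : Module.End 𝒪 W) v := rfl
    rw [h3, h1, h2]
    have h4 : ((1 - (p : ↥(Algebra.adjoin 𝒪 s)) * sB : ↥(Algebra.adjoin 𝒪 s)) :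
        Module.End 𝒪 W) v - v = -((p : 𝒪) • ((sB : Module.End 𝒪 W) v)) := by
      have e1 : ((1 - (p : ↥(Algebra.adjoin 𝒪 s)) * sB : ↥(Algebra.adjoin 𝒪 s)) :
          Module.End 𝒪 W) v
          = v - (((p : ↥(Algebra.adjoin 𝒪 s)) * sB : ↥(Algebra.adjoin 𝒪 s)) :
            Module.End 𝒪 W) v := rfl
      rw [e1, hmulapp, hnatapp]
      abel
    rw [h4]
    exact Submodule.neg_mem _ (Submodule.smul_mem_smul hp𝔪 Submodule.mem_top)
  have reg1 : ∀ g z : ↥(Algebra.adjoin 𝒪 s), (1 + (xB - 1) * g) * z = 0 → z = 0 := by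
    intro g z hz
    have hinj := OrzechProperty.injective_of_surjective_endomorphism _ (hsurj g)
    refine hzero z fun v => hinj ?_
    have h1 := congrArg (fun f : ↥(Algebra.adjoin 𝒪 s) => (f : Module.End 𝒪 W) v) hz
    rw [map_zero]
    exact h1
  obtain ⟨g, u, hgu⟩ := ihpi_alg hp hp2 xB eB hc hΦB haBpow regp regwl reg1
  intro v
  obtain ⟨w, hw⟩ := hsurj g v
  refine ⟨(u : Module.End 𝒪 W) w, ?_⟩
  rw [← happ, ← happ, ← hw, hgu]
  exact he _

end Core

section Lift

variable {𝒪 : Type*} [CommRing 𝒪] [IsLocalRing 𝒪]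
  {M : Type*} [AddCommGroup M] [Module 𝒪 M] [Module.Finite 𝒪 M]

/-- `∑_{i<n} a^i = n + (a - 1) ∑_{i<n} ∑_{l<i} a^l` -/
theorem ihpi_geom_sum_eq_add {R : Type*} [Ring R] (a : R) (n : ℕ) :
    ∑ i ∈ range n, a ^ i = (n : R) + (a - 1) * ∑ i ∈ range n, ∑ l ∈ range i, a ^ l := by
  have h2 : ∀ i : ℕ, a ^ i = 1 + (a - 1) * ∑ l ∈ range i, a ^ l := fun i => by
    rw [mul_geom_sum]; abel
  calc ∑ i ∈ range n, a ^ i
      = ∑ i ∈ range n, (1 + (a - 1) * ∑ l ∈ range i, a ^ l) :=
        Finset.sum_congr rfl (fun i _ => h2 i)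
    _ = _ := by
        rw [Finset.sum_add_distrib, Finset.sum_const, Finset.card_range, nsmul_eq_mul, mul_one,
          ← Finset.mul_sum]

/-- **Inertia-freeness lemma** (range form).  `M` a finite `𝒪`-module without `p`-torsion,
`x`, `a` commuting automorphisms of order dividing `p^c`; `G` plays the role of
`(X^(p^c) - 1)/(X^p - 1)` evaluated at `x` and the two exactness hypotheses hold when `M` is free
over `𝒪[X]/(X^(p^c) - 1)`.  If `(a - 1) M ⊆ (x - 1) M` and `a` has no fixed vector on the part of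
`M` where `x` has order `p`, then `(x - 1) M ⊆ (a - 1) M`. -/
theorem ihp_inertia_range {p : ℕ} (hp : p.Prime) (hp2 : 2 < p)
    (hp𝔪 : (p : 𝒪) ∈ maximalIdeal 𝒪) (htf : ∀ v : M, (p : 𝒪) • v = 0 → v = 0)
    (x a G : Module.End 𝒪 M) (hxa : Commute x a) (hxG : Commute x G) (haG : Commute a G)
    (c : ℕ) (hx : x ^ (p ^ c) = 1) (ha : a ^ (p ^ c) = 1)
    (hG : (x ^ p - 1) * G = 0)
    (hE2 : ∀ v, x (G v) - G v = 0 → ∃ u, v = (∑ i ∈ range p, x ^ i : Module.End 𝒪 M) u)
    (hE3 : ∀ v, (∑ i ∈ range p, x ^ i : Module.End 𝒪 M) (G v) = 0 → ∃ u, v = x u - u)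
    (hsc : ∀ v, ∃ w, a v - v = x w - w)
    (hwl : ∀ v, (∑ i ∈ range p, x ^ i : Module.End 𝒪 M) v = 0 → a v = v → v = 0) :
    ∀ v, ∃ w, x v - v = a w - w := by
  classical
  have happ : ∀ (f : Module.End 𝒪 M) (v : M), (f - 1 : Module.End 𝒪 M) v = f v - v := by
    intro f v; simp
  set Φ : Module.End 𝒪 M := ∑ i ∈ range p, x ^ i with hΦdef
  set π : Module.End 𝒪 M := x - 1 with hπdef
  set Ψ : Module.End 𝒪 M := π * G with hΨdef
  have hΦπ : Φ * π = x ^ p - 1 := geom_sum_mul x p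
  have hπΦ : π * Φ = x ^ p - 1 := mul_geom_sum x p
  have hxΦ : Commute x Φ := by
    refine Commute.sum_right _ _ _ fun i _ => ?_
    exact (Commute.refl x).pow_right i
  have hxπ : Commute x π := (Commute.refl x).sub_right (Commute.one_right x)
  have haπ : Commute a π := (hxa.symm).sub_right (Commute.one_right a)
  have haΦ : Commute a Φ := by
    refine Commute.sum_right _ _ _ fun i _ => ?_
    exact (hxa.symm).pow_right i
  have hxΨ : Commute x Ψ := hxπ.mul_right hxG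
  have haΨ : Commute a Ψ := haπ.mul_right haG
  have hΦΨ : Φ * Ψ = 0 := by rw [hΨdef, ← mul_assoc, hΦπ, hG]
  -- the submodule `W = Ψ M`
  set W : Submodule 𝒪 M := LinearMap.range Ψ with hW
  have hxW : ∀ w ∈ W, x w ∈ W := by
    rintro w ⟨v, rfl⟩
    refine ⟨x v, ?_⟩
    have := congrArg (fun f : Module.End 𝒪 M => f v) hxΨ.eq
    exact this.symm
  have haW : ∀ w ∈ W, a w ∈ W := by
    rintro w ⟨v, rfl⟩
    refine ⟨a v, ?_⟩
    have := congrArg (fun f : Module.End 𝒪 M => f v) haΨ.eq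
    exact this.symm
  set xW : Module.End 𝒪 W := x.restrict hxW with hxWdef
  set aW : Module.End 𝒪 W := a.restrict haW with haWdef
  have hxWpow : ∀ (i : ℕ) (w : W), ((xW ^ i) w : M) = (x ^ i) (w : M) := by
    intro i
    induction i with
    | zero => intro w; simp
    | succ i ih =>
      intro w
      rw [pow_succ, Module.End.mul_apply, ih, pow_succ, Module.End.mul_apply]
      rfl
  have haWpow : ∀ (i : ℕ) (w : W), ((aW ^ i) w : M) = (a ^ i) (w : M) := by
    intro i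
    induction i with
    | zero => intro w; simp
    | succ i ih =>
      intro w
      rw [pow_succ, Module.End.mul_apply, ih, pow_succ, Module.End.mul_apply]
      rfl
  haveI : Module.Finite 𝒪 W := Module.Finite.range Ψ
  have key := ihpi_core (𝒪 := 𝒪) (W := W) hp hp2 hp𝔪
    (fun w hw => Subtype.ext (htf (w : M) (by
      have := congrArg Subtype.val hw
      simpa using this)))
    xW aW
    (by
      refine LinearMap.ext fun w => Subtype.ext ?_
      have := congrArg (fun f : Module.End 𝒪 M => f (w : M)) hxa.eq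
      exact this)
    (by
      refine LinearMap.ext fun w => Subtype.ext ?_
      obtain ⟨w, v, rfl⟩ := w
      have h1 : (((∑ i ∈ range p, xW ^ i : Module.End 𝒪 W) ⟨Ψ v, v, rfl⟩ : W) : M)
          = Φ (Ψ v) := by
        rw [LinearMap.sum_apply, hΦdef, LinearMap.sum_apply, AddSubmonoidClass.coe_finsetSum]
        exact Finset.sum_congr rfl fun i _ => hxWpow i _
      rw [h1]
      have := congrArg (fun f : Module.End 𝒪 M => f v) hΦΨ
      exact this)
    c
    (by
      refine LinearMap.ext fun w => Subtype.ext ?_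
      rw [haWpow, ha]
      rfl)
    (by
      rintro ⟨w, v, rfl⟩
      obtain ⟨u, hu⟩ := hsc v
      refine ⟨⟨Ψ u, u, rfl⟩, Subtype.ext ?_⟩
      show a (Ψ v) - Ψ v = x (Ψ u) - Ψ u
      have h1 : a (Ψ v) = Ψ (a v) := congrArg (fun f : Module.End 𝒪 M => f v) haΨ.eq
      have h2 : x (Ψ u) = Ψ (x u) := congrArg (fun f : Module.End 𝒪 M => f u) hxΨ.eq
      rw [h1, h2, ← map_sub, ← map_sub, hu])
    (by
      rintro ⟨w, v, rfl⟩ hw
      refine Subtype.ext ?_
      have h1 : a (Ψ v) = Ψ v := congrArg Subtype.val hw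
      refine hwl (Ψ v) ?_ h1
      exact congrArg (fun f : Module.End 𝒪 M => f v) hΦΨ)
  have hxN : ∀ u, x (Φ (G u)) = Φ (G u) := by
    intro u
    have h1 : (π * (Φ * G)) u = 0 := by
      rw [← mul_assoc, hπΦ, hG]; rfl
    have h2 : x (Φ (G u)) - Φ (G u) = 0 := by
      have : (π * (Φ * G)) u = x (Φ (G u)) - Φ (G u) := by
        rw [Module.End.mul_apply, Module.End.mul_apply, hπdef, happ]
      rw [← this, h1]
    exact sub_eq_zero.mp h2
  have hΦfix : ∀ w, x w = w → Φ w = (p : 𝒪) • w := by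
    intro w hw
    have hpow : ∀ i : ℕ, (x ^ i) w = w := by
      intro i
      induction i with
      | zero => simp
      | succ i ih => rw [pow_succ, Module.End.mul_apply, hw, ih]
    rw [hΦdef, LinearMap.sum_apply]
    simp only [hpow, Finset.sum_const, Finset.card_range]
    rw [Nat.cast_smul_eq_nsmul]
  have hGΦ : Commute G Φ := by
    refine Commute.sum_right _ _ _ fun i _ => ?_
    exact (hxG.symm).pow_right i
  have hGπ : Commute G π := (hxG.symm).sub_right (Commute.one_right G)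
  -- (★): every `(x - 1) v` is `(a - 1) v' + (x - 1) (Φ u')`
  have star : ∀ v, ∃ v' u', x v - v = (a v' - v') + (x (Φ u') - Φ u') := by
    intro v
    obtain ⟨⟨w', v', rfl⟩, hw'⟩ := key ⟨Ψ v, v, rfl⟩
    have h1 : x (Ψ v) - Ψ v = a (Ψ v') - Ψ v' := congrArg Subtype.val hw'
    have e1 : x (Ψ v) = Ψ (x v) := congrArg (fun f : Module.End 𝒪 M => f v) hxΨ.eq
    have e2 : a (Ψ v') = Ψ (a v') := congrArg (fun f : Module.End 𝒪 M => f v') haΨ.eq
    have h2 : Ψ ((x v - v) - (a v' - v')) = 0 := by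
      rw [map_sub, map_sub, map_sub, ← e1, ← e2, h1, sub_self]
    have h2' : x (G ((x v - v) - (a v' - v'))) - G ((x v - v) - (a v' - v')) = 0 := by
      have : Ψ ((x v - v) - (a v' - v'))
          = x (G ((x v - v) - (a v' - v'))) - G ((x v - v) - (a v' - v')) := by
        rw [hΨdef, Module.End.mul_apply, hπdef, happ]
      rw [← this, h2]
    obtain ⟨u, hu⟩ := hE2 _ h2'
    obtain ⟨v'', hv''⟩ := hsc v'
    have h3 : Φ u = π (v - v'') := by
      rw [hπdef, happ, ← hu, hv'', map_sub]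
      abel
    have h4 : Φ (G (Φ u)) = 0 := by
      rw [h3]
      have : (Φ * G * π) (v - v'') = 0 := by
        rw [mul_assoc, hGπ.eq, ← mul_assoc, hΦπ, hG]; rfl
      exact this
    have h5 : (p : 𝒪) • Φ (G u) = 0 := by
      rw [← hΦfix _ (hxN u)]
      have : Φ (Φ (G u)) = Φ (G (Φ u)) := by
        have := congrArg (fun f : Module.End 𝒪 M => Φ (f u)) hGΦ.eq
        exact this.symm
      rw [this, h4]
    obtain ⟨u', hu'⟩ := hE3 u (htf _ h5)
    refine ⟨v', u', ?_⟩
    have h6 : Φ u = x (Φ u') - Φ u' := by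
      rw [hu', map_sub]
      have e : x (Φ u') = Φ (x u') := congrArg (fun f : Module.End 𝒪 M => f u') hxΦ.eq
      rw [e]
    rw [← h6, ← hu]
    abel
  -- `Φ = p + π Q`
  set Q : Module.End 𝒪 M := ∑ i ∈ range p, ∑ l ∈ range i, x ^ l with hQdef
  have hΦQ : Φ = (p : Module.End 𝒪 M) + π * Q := ihpi_geom_sum_eq_add x p
  set T : Submodule 𝒪 M := LinearMap.range π with hT
  set S : Submodule 𝒪 M := LinearMap.range (a - 1 : Module.End 𝒪 M) with hS
  have hπS : S.map π ≤ S := by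
    rintro _ ⟨_, ⟨v, rfl⟩, rfl⟩
    refine ⟨π v, ?_⟩
    have h1 : Commute (a - 1) π := (haπ).sub_left (Commute.one_left π)
    exact congrArg (fun f : Module.End 𝒪 M => f v) h1.eq
  have hπT : T.map π ≤ T := by
    rintro _ ⟨_, ⟨v, rfl⟩, rfl⟩
    exact ⟨π v, rfl⟩
  have star' : T ≤ S ⊔ maximalIdeal 𝒪 • T ⊔ T.map π := by
    rintro _ ⟨v, rfl⟩
    obtain ⟨v', u', h⟩ := star v
    have h1 : π v = (a - 1 : Module.End 𝒪 M) v' + ((p : 𝒪) • π u' + π (π (Q u'))) := by
      rw [hπdef, happ, happ, h]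
      congr 1
      rw [← happ x, ← hπdef, hΦQ, LinearMap.add_apply, map_add, Module.End.mul_apply]
      congr 1
      have : ((p : Module.End 𝒪 M)) u' = (p : 𝒪) • u' := by
        rw [Nat.cast_smul_eq_nsmul]; simp
      rw [this, map_smul]
    rw [h1]
    refine Submodule.add_mem _ (Submodule.mem_sup_left (Submodule.mem_sup_left ⟨v', rfl⟩)) ?_
    refine Submodule.add_mem _ (Submodule.mem_sup_left (Submodule.mem_sup_right ?_))
      (Submodule.mem_sup_right ⟨π (Q u'), ⟨Q u', rfl⟩, rfl⟩)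
    exact Submodule.smul_mem_smul hp𝔪 ⟨u', rfl⟩
  have hSk : ∀ k : ℕ, S.map (π ^ k) ≤ S := by
    intro k
    induction k with
    | zero =>
      rintro _ ⟨t, ht, rfl⟩
      rw [pow_zero]; exact ht
    | succ k ihk =>
      rw [pow_succ', Module.End.mul_eq_comp, Submodule.map_comp]
      exact (Submodule.map_mono ihk).trans hπS
  have hTk : ∀ k : ℕ, T.map (π ^ k) ≤ T := by
    intro k
    induction k with
    | zero =>
      rintro _ ⟨t, ht, rfl⟩
      rw [pow_zero]; exact ht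
    | succ k ihk =>
      rw [pow_succ', Module.End.mul_eq_comp, Submodule.map_comp]
      exact (Submodule.map_mono ihk).trans hπT
  have hind : ∀ k : ℕ, T ≤ S ⊔ maximalIdeal 𝒪 • T ⊔ T.map (π ^ k) := by
    intro k
    induction k with
    | zero =>
      intro t ht
      refine Submodule.mem_sup_right ⟨t, ht, ?_⟩
      rw [pow_zero]; rfl
    | succ k ih =>
      refine ih.trans (sup_le le_sup_left ?_)
      have h1 : T.map (π ^ k) ≤ (S ⊔ maximalIdeal 𝒪 • T ⊔ T.map π).map (π ^ k) :=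
        Submodule.map_mono star'
      refine h1.trans ?_
      rw [Submodule.map_sup, Submodule.map_sup]
      refine sup_le (sup_le ((hSk k).trans (le_sup_left.trans le_sup_left)) ?_) ?_
      · rw [Submodule.map_smul'']
        exact (Submodule.smul_mono le_rfl (hTk k)).trans (le_sup_right.trans le_sup_left)
      · rw [← Submodule.map_comp, ← Module.End.mul_eq_comp, ← pow_succ]
        exact le_sup_right
  obtain ⟨h, hhx, hpow⟩ := ihpi_sub_one_pow_apply hp c x hx
  have hfinal : T ≤ S ⊔ maximalIdeal 𝒪 • T := by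
    refine (hind (p ^ c)).trans (sup_le le_rfl ?_)
    rintro _ ⟨_, ⟨v, rfl⟩, rfl⟩
    refine Submodule.mem_sup_right ?_
    have hhπ : Commute h π := hhx.sub_right (Commute.one_right h)
    have h1 : (π ^ (p ^ c)) (π v) = (p : 𝒪) • π (h v) := by
      rw [hπdef, hpow, Module.End.mul_apply]
      have : ((p : Module.End 𝒪 M)) (h ((x - 1 : Module.End 𝒪 M) v))
          = (p : 𝒪) • h ((x - 1 : Module.End 𝒪 M) v) := by
        rw [Nat.cast_smul_eq_nsmul]; simp
      rw [this]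
      congr 1
      exact congrArg (fun f : Module.End 𝒪 M => f v) hhπ.eq
    rw [h1]
    exact Submodule.smul_mem_smul hp𝔪 ⟨h v, rfl⟩
  have hTfg : T.FG := by
    rw [hT, LinearMap.range_eq_map]
    exact Module.Finite.fg_top.map π
  have hTS := Submodule.le_of_le_smul_of_le_jacobson_bot hTfg (maximalIdeal_le_jacobson ⊥) hfinal
  intro v
  obtain ⟨w, hw⟩ := hTS ⟨v, rfl⟩
  refine ⟨w, ?_⟩
  rw [← happ, ← happ]
  exact hw.symm

end Lift

section Tate

variable {𝒪 : Type*} [CommRing 𝒪] {M : Type*} [AddCommGroup M] [Module 𝒪 M]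

/-- `Ĥ⁰ = 0` for a relatively projective module: if `∑_{k<N} X^k e X^(N-k) = 1` and `X^N = 1`,
every `X`-fixed vector is a norm. -/
theorem ihpi_h0 (X e : Module.End 𝒪 M) (N : ℕ) (hX : X ^ N = 1)
    (he : ∑ k ∈ range N, X ^ k * e * X ^ (N - k) = 1) (v : M) (hv : X v = v) :
    v = (∑ k ∈ range N, X ^ k : Module.End 𝒪 M) (e v) := by
  have hpow : ∀ i : ℕ, (X ^ i) v = v := by
    intro i
    induction i with
    | zero => simp
    | succ i ih => rw [pow_succ, Module.End.mul_apply, hv, ih]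
  have h1 : v = (∑ k ∈ range N, X ^ k * e * X ^ (N - k) : Module.End 𝒪 M) v := by
    rw [he]; rfl
  rw [LinearMap.sum_apply] at h1
  rw [LinearMap.sum_apply]
  conv_lhs => rw [h1]
  refine Finset.sum_congr rfl fun k _ => ?_
  rw [Module.End.mul_apply, Module.End.mul_apply, hpow]

/-- `Ĥ⁻¹ = 0` for a relatively projective module. -/
theorem ihpi_hm1 (X e : Module.End 𝒪 M) (N : ℕ) (hX : X ^ N = 1)
    (he : ∑ k ∈ range N, X ^ k * e * X ^ (N - k) = 1) (v : M)
    (hv : (∑ k ∈ range N, X ^ k : Module.End 𝒪 M) v = 0) :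
    ∃ u, v = X u - u := by
  have hrefl : (∑ k ∈ range N, X ^ (N - k) : Module.End 𝒪 M) = X * ∑ k ∈ range N, X ^ k := by
    rw [← Finset.sum_range_reflect (fun k => X ^ k) N, Finset.mul_sum]
    refine Finset.sum_congr rfl fun k hk => ?_
    rw [← pow_succ']
    congr 1
    have := Finset.mem_range.mp hk
    omega
  have h0 : (∑ k ∈ range N, e ((X ^ (N - k)) v)) = 0 := by
    have : (∑ k ∈ range N, e ((X ^ (N - k)) v))
        = e ((∑ k ∈ range N, X ^ (N - k) : Module.End 𝒪 M) v) := by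
      rw [LinearMap.sum_apply, map_sum]
    rw [this, hrefl, Module.End.mul_apply, hv, map_zero, map_zero]
  have h1 : v = ∑ k ∈ range N, (X ^ k) (e ((X ^ (N - k)) v)) := by
    have : v = (∑ k ∈ range N, X ^ k * e * X ^ (N - k) : Module.End 𝒪 M) v := by
      rw [he]; rfl
    rw [LinearMap.sum_apply] at this
    exact this
  refine ⟨∑ k ∈ range N, (∑ l ∈ range k, X ^ l : Module.End 𝒪 M) (e ((X ^ (N - k)) v)), ?_⟩
  rw [map_sum, ← Finset.sum_sub_distrib]
  have h2 : ∀ k ∈ range N,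
      X ((∑ l ∈ range k, X ^ l : Module.End 𝒪 M) (e ((X ^ (N - k)) v)))
        - (∑ l ∈ range k, X ^ l : Module.End 𝒪 M) (e ((X ^ (N - k)) v))
      = (X ^ k) (e ((X ^ (N - k)) v)) - e ((X ^ (N - k)) v) := by
    intro k _
    have : ((X - 1) * ∑ l ∈ range k, X ^ l : Module.End 𝒪 M) = X ^ k - 1 := mul_geom_sum X k
    have h3 := congrArg (fun f : Module.End 𝒪 M => f (e ((X ^ (N - k)) v))) this
    simpa using h3
  rw [Finset.sum_congr rfl h2, Finset.sum_sub_distrib, h0, sub_zero]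
  exact h1

end Tate



section Single

variable {𝒪 : Type*} [CommRing 𝒪] [IsLocalRing 𝒪]
  {M : Type*} [AddCommGroup M] [Module 𝒪 M] [Module.Finite 𝒪 M]

theorem ihpi_sum_range_mul {A : Type*} [AddCommMonoid A] (f : ℕ → A) (p n : ℕ) :
    ∑ m ∈ range (p * n), f m = ∑ k ∈ range n, ∑ i ∈ range p, f (p * k + i) := by
  induction n with
  | zero => simp
  | succ n ih =>
    rw [Nat.mul_succ, Finset.sum_range_add, ih, Finset.sum_range_succ]

/-- **Inertia-freeness lemma** (one cyclic factor).  `M` a finite `𝒪`-module without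
`p`-torsion, `x`, `a` commuting automorphisms of order dividing `p^c`; `M` is relatively
projective for `⟨x⟩` (`∑_k x^k e x^(-k) = 1`, e.g. `M` free over `𝒪[X]/(X^(p^c) - 1)`).
If `(a - 1) M ⊆ (x - 1) M` and `a` has no fixed vector on the part of `M` where `x` has
order `p`, then `(x - 1) M ⊆ (a - 1) M`. -/
theorem ihp_inertia {p : ℕ} (hp : p.Prime) (hp2 : 2 < p)
    (hp𝔪 : (p : 𝒪) ∈ maximalIdeal 𝒪) (htf : ∀ v : M, (p : 𝒪) • v = 0 → v = 0)
    (x a e : Module.End 𝒪 M) (hxa : Commute x a)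
    (c : ℕ) (hc : 0 < c) (hx : x ^ (p ^ c) = 1) (ha : a ^ (p ^ c) = 1)
    (he : ∑ k ∈ range (p ^ c), x ^ k * e * x ^ (p ^ c - k) = 1)
    (hsc : ∀ v, ∃ w, a v - v = x w - w)
    (hwl : ∀ v, (∑ i ∈ range p, x ^ i : Module.End 𝒪 M) v = 0 → a v = v → v = 0) :
    ∀ v, ∃ w, x v - v = a w - w := by
  obtain ⟨c', rfl⟩ : ∃ c', c = c' + 1 := ⟨c - 1, by omega⟩
  set N' : ℕ := p ^ c' with hN'
  have hN : p ^ (c' + 1) = p * N' := by rw [pow_succ, mul_comm]
  set G : Module.End 𝒪 M := ∑ k ∈ range N', (x ^ p) ^ k with hGdef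
  set Φ : Module.End 𝒪 M := ∑ i ∈ range p, x ^ i with hΦdef
  have hxpN : (x ^ p) ^ N' = 1 := by rw [← pow_mul, ← hN, hx]
  have hxG : Commute x G :=
    Commute.sum_right _ _ _ fun i _ => ((Commute.refl x).pow_right p).pow_right i
  have haG : Commute a G :=
    Commute.sum_right _ _ _ fun i _ => ((hxa.symm).pow_right p).pow_right i
  have hG : (x ^ p - 1) * G = 0 := by
    rw [hGdef, mul_geom_sum, hxpN, sub_self]
  have hΦG : Φ * G = ∑ k ∈ range (p ^ (c' + 1)), x ^ k := by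
    rw [hN, ihpi_sum_range_mul, hGdef, hΦdef, Finset.mul_sum]
    refine Finset.sum_congr rfl fun k _ => ?_
    rw [Finset.sum_mul]
    refine Finset.sum_congr rfl fun i _ => ?_
    rw [← pow_mul, ← pow_add, add_comm]
  have hGΦ : Commute G Φ :=
    Commute.sum_right _ _ _ fun i _ => (hxG.symm).pow_right i
  -- the relative projectivity for `x^p`
  set e' : Module.End 𝒪 M := ∑ i ∈ range p, x ^ i * e * x ^ (p ^ (c' + 1) - i) with he'def
  have he' : ∑ k ∈ range N', (x ^ p) ^ k * e' * (x ^ p) ^ (N' - k) = 1 := by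
    rw [← he, hN, ihpi_sum_range_mul]
    refine Finset.sum_congr rfl fun k hk => ?_
    rw [he'def, Finset.mul_sum, Finset.sum_mul]
    refine Finset.sum_congr rfl fun i hi => ?_
    have hk' := Finset.mem_range.mp hk
    have hi' := Finset.mem_range.mp hi
    have h1 : p * k + p ≤ p * N' := by
      calc p * k + p = p * (k + 1) := by ring
        _ ≤ p * N' := Nat.mul_le_mul_left p hk'
    have h2 : (x ^ p) ^ k * (x ^ i * e * x ^ (p ^ (c' + 1) - i)) * (x ^ p) ^ (N' - k)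
        = x ^ (p * k + i) * e * (x ^ (p ^ (c' + 1) - i) * (x ^ p) ^ (N' - k)) := by
      have e1 : (x ^ p) ^ k = x ^ (p * k) := (pow_mul x p k).symm
      have e2 : x ^ (p * k + i) = x ^ (p * k) * x ^ i := pow_add x _ _
      rw [e1, e2]
      simp only [mul_assoc]
    rw [h2]
    congr 1
    rw [← pow_mul, ← pow_add]
    have h3 : p ^ (c' + 1) - i + p * (N' - k) = (p * N' - (p * k + i)) + p ^ (c' + 1) := by
      rw [hN, Nat.mul_sub]
      have : p * k ≤ p * N' := Nat.mul_le_mul_left p hk'.le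
      omega
    rw [h3, pow_add, hx, mul_one]
  refine ihp_inertia_range hp hp2 hp𝔪 htf x a G hxa hxG haG (c' + 1) hx ha hG ?_ ?_ hsc hwl
  · -- (E2)
    intro v hv
    have h1 := ihpi_h0 x e (p ^ (c' + 1)) hx he (G v) (sub_eq_zero.mp hv)
    rw [← hΦG, hGΦ.symm.eq, Module.End.mul_apply] at h1
    set u₁ : M := Φ (e (G v)) with hu₁
    have h2 : (∑ k ∈ range N', (x ^ p) ^ k : Module.End 𝒪 M) (v - u₁) = 0 := by
      rw [← hGdef, map_sub, ← h1, sub_self]
    obtain ⟨u₂, hu₂⟩ := ihpi_hm1 (x ^ p) e' N' hxpN he' (v - u₁) h2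
    refine ⟨e (G v) + (x u₂ - u₂), ?_⟩
    have h3 : Φ (x u₂ - u₂) = (x ^ p) u₂ - u₂ := by
      have : (Φ * (x - 1) : Module.End 𝒪 M) = x ^ p - 1 := geom_sum_mul x p
      have h4 := congrArg (fun f : Module.End 𝒪 M => f u₂) this
      simpa using h4
    rw [map_add, h3, ← hu₂, ← hu₁]
    abel
  · -- (E3)
    intro v hv
    refine ihpi_hm1 x e (p ^ (c' + 1)) hx he v ?_
    rw [← hΦG, Module.End.mul_apply]
    exact hv

end Single

end Fermat.Agent.Ihara
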