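/-
IHARA / P (helper2), part 11: the inertia-freeness lemma in the form consumed by the assembler.

`G` a finite abelian group with two commuting actions `x` (diamonds), `a` (inertia scalars) on a
finite `𝒪`-module `M`, which has a basis of the form `b (j, g) = x g (w j)` (free over `𝒪[G]` for
the `x`-action).  If `G` is generated by elements `γ q` of order `p ^ c q` at which (SC) and (WL)
hold, then `(x (γ q) - 1) M ⊆ (a (γ q) - 1) M` and `a g (w j)` is again a basis
(`ihp_inertia_free`): `M` is free over `𝒪[G]` for the `a`-action, on the same generators.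
-/
import Mathlib
import Fermat.Agent.Lib.Ihara.P.Inertia

set_option autoImplicit false
set_option linter.unusedSectionVars false
set_option linter.unusedVariables false
set_option linter.style.haveILetI false
set_option linter.unusedSimpArgs false

namespace Fermat.Agent.Ihara

open Finset IsLocalRing

section Proj

variable {𝒪 : Type*} [CommRing 𝒪] {M : Type*} [AddCommGroup M] [Module 𝒪 M]

/-- Higman's criterion for a permutation basis: if `G` permutes the basis `b (j, g)` freely
(`x h (b (j, g)) = b (j, h g)`) and `γ : G` has order `N`, the identity of `M` is the relative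
trace `∑_{k<N} x_γ^k e x_γ^{-k}` of an `𝒪`-endomorphism `e`. -/
theorem ihpi_exists_proj {G : Type*} [CommGroup G] {ι : Type*} (γ : G) (N : ℕ) (hN0 : 0 < N)
    (hN : orderOf γ = N) (x : G →* Module.End 𝒪 M) (b : Module.Basis (ι × G) 𝒪 M)
    (hxb : ∀ h j g, x h (b (j, g)) = b (j, h * g)) :
    ∃ e : Module.End 𝒪 M, ∑ k ∈ range N, x γ ^ k * e * x γ ^ (N - k) = 1 := by
  classical
  set C : Subgroup G := Subgroup.zpowers γ with hC
  set θ : G → 𝒪 := fun g => if Quotient.out (QuotientGroup.mk g : G ⧸ C) = g then 1 else 0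
    with hθ
  set e : Module.End 𝒪 M := b.constr 𝒪 (fun jg => θ jg.2 • b jg) with he
  have he_basis : ∀ j g, e (b (j, g)) = θ g • b (j, g) := fun j g => by
    rw [he, Module.Basis.constr_basis]
  have hpow : ∀ (k : ℕ) j g, (x γ ^ k) (b (j, g)) = b (j, γ ^ k * g) := fun k j g => by
    rw [← map_pow, hxb]
  have hγN : γ ^ N = 1 := by rw [← hN]; exact pow_orderOf_eq_one γ
  -- the key count
  have hcount : ∀ g : G, ∑ k ∈ range N, θ (γ ^ (N - k) * g) = 1 := by
    intro g
    set r : G := Quotient.out (QuotientGroup.mk g : G ⧸ C) with hr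
    have hrg : r⁻¹ * g ∈ C := by
      have : (QuotientGroup.mk r : G ⧸ C) = QuotientGroup.mk g := QuotientGroup.out_eq' _
      exact QuotientGroup.eq.mp this
    obtain ⟨z, hz⟩ := Subgroup.mem_zpowers_iff.mp hrg
    have hNpos : (0 : ℤ) < (N : ℤ) := by exact_mod_cast hN0
    set m : ℕ := (z % (N : ℤ)).toNat with hm
    have hmz : (m : ℤ) = z % (N : ℤ) := Int.toNat_of_nonneg (Int.emod_nonneg z hNpos.ne')
    have hmN : m < N := by
      have := Int.emod_lt_of_pos z hNpos
      omega
    have hγm : γ ^ m = r⁻¹ * g := by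
      rw [← hz, ← zpow_natCast, hmz, ← hN, zpow_mod_orderOf]
    have hg : g = r * γ ^ m := by rw [hγm, mul_inv_cancel_left]
    have hterm : ∀ k ∈ range N, θ (γ ^ (N - k) * g) = if k = m then 1 else 0 := by
      intro k hk
      have hkN := Finset.mem_range.mp hk
      have hmk : (QuotientGroup.mk (γ ^ (N - k) * g) : G ⧸ C) = QuotientGroup.mk g := by
        refine QuotientGroup.eq.mpr ?_
        have : (γ ^ (N - k) * g)⁻¹ * g = (γ ^ (N - k))⁻¹ := by
          rw [mul_inv_rev, mul_comm, ← mul_assoc, mul_inv_cancel, one_mul]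
        rw [this]
        exact Subgroup.inv_mem _ (Subgroup.pow_mem _ (Subgroup.mem_zpowers γ) _)
      show (if Quotient.out (QuotientGroup.mk (γ ^ (N - k) * g) : G ⧸ C) = γ ^ (N - k) * g
        then (1 : 𝒪) else 0) = _
      rw [hmk, ← hr]
      by_cases hkm : k = m
      · rw [if_pos hkm, if_pos]
        rw [hkm, hg, mul_comm r, ← mul_assoc, ← pow_add, Nat.sub_add_cancel hmN.le, hγN, one_mul]
      · rw [if_neg hkm, if_neg]
        intro h
        apply hkm
        have h1 : γ ^ (N - k + m) = 1 := by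
          have : r = γ ^ (N - k + m) * r := by
            conv_lhs => rw [h, hg]
            rw [pow_add, mul_comm r, mul_assoc]
          have h2 : γ ^ (N - k + m) * r = 1 * r := by rw [one_mul]; exact this.symm
          exact mul_right_cancel h2
        have h2 : N ∣ N - k + m := by
          have h3 := orderOf_dvd_of_pow_eq_one h1
          rwa [hN] at h3
        obtain ⟨t, ht⟩ := h2
        have ht1 : t = 1 := by
          rcases Nat.lt_trichotomy t 1 with h3 | h3 | h3
          · have : t = 0 := by omega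
            rw [this, mul_zero] at ht
            omega
          · exact h3
          · have : N * 2 ≤ N * t := Nat.mul_le_mul_left N h3
            omega
        rw [ht1, mul_one] at ht
        omega
    rw [Finset.sum_congr rfl hterm, Finset.sum_ite_eq' (range N) m]
    rw [if_pos (Finset.mem_range.mpr hmN)]
  refine ⟨e, b.ext fun jg => ?_⟩
  obtain ⟨j, g⟩ := jg
  rw [LinearMap.sum_apply]
  have hterm : ∀ k ∈ range N, (x γ ^ k * e * x γ ^ (N - k)) (b (j, g))
      = θ (γ ^ (N - k) * g) • b (j, g) := by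
    intro k hk
    have hkN := Finset.mem_range.mp hk
    rw [Module.End.mul_apply, Module.End.mul_apply, hpow, he_basis, map_smul, hpow,
      ← mul_assoc, ← pow_add, Nat.add_sub_cancel' hkN.le, hγN, one_mul]
  rw [Finset.sum_congr rfl hterm, ← Finset.sum_smul, hcount, one_smul]
  rfl

end Proj

section Nak

variable {𝒪 : Type*} [CommRing 𝒪] [IsLocalRing 𝒪]
  {M : Type*} [AddCommGroup M] [Module 𝒪 M] [Module.Finite 𝒪 M]

/-- Nakayama for finitely many commuting topologically nilpotent operators -/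
theorem ihpi_nakayama_comm {Q : Type*} (s : Finset Q) (y : Q → Module.End 𝒪 M)
    (hy : ∀ q q', Commute (y q) (y q')) (K : Q → ℕ)
    (hK : ∀ q v, (y q ^ K q) v ∈ maximalIdeal 𝒪 • (⊤ : Submodule 𝒪 M))
    (M' : Submodule 𝒪 M) (hM' : ∀ q, ∀ v ∈ M', y q v ∈ M')
    (h : ⊤ ≤ M' ⊔ maximalIdeal 𝒪 • (⊤ : Submodule 𝒪 M) ⊔ ⨆ q ∈ s, LinearMap.range (y q)) :
    M' = ⊤ := by
  classical
  set P₀ : Submodule 𝒪 M := M' ⊔ maximalIdeal 𝒪 • (⊤ : Submodule 𝒪 M) with hP₀
  have hP₀map : ∀ q, P₀.map (y q) ≤ P₀ := by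
    intro q
    rw [hP₀, Submodule.map_sup]
    refine sup_le_sup ?_ ?_
    · rintro _ ⟨v, hv, rfl⟩
      exact hM' q v hv
    · rw [Submodule.map_smul'']
      exact Submodule.smul_mono le_rfl le_top
  have key : ∀ s : Finset Q, ⊤ ≤ P₀ ⊔ ⨆ q ∈ s, LinearMap.range (y q) → ⊤ ≤ P₀ := by
    intro s
    induction s using Finset.induction_on with
    | empty =>
      intro h
      simpa using h
    | insert q₀ s' hq₀ ih =>
      intro h
      rw [Finset.iSup_insert] at h
      set P : Submodule 𝒪 M := P₀ ⊔ ⨆ q ∈ s', LinearMap.range (y q) with hP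
      have h' : ⊤ ≤ P ⊔ LinearMap.range (y q₀) := by
        refine h.trans ?_
        rw [hP]
        refine sup_le (le_sup_of_le_left le_sup_left) (sup_le le_sup_right ?_)
        exact le_sup_of_le_left le_sup_right
      have hPmap : P.map (y q₀) ≤ P := by
        rw [hP, Submodule.map_sup]
        refine sup_le_sup (hP₀map q₀) ?_
        rw [Submodule.map_iSup]
        refine iSup_le fun q => ?_
        rw [Submodule.map_iSup]
        refine iSup_le fun hq => ?_
        refine le_trans ?_ (le_iSup₂ (f := fun q _ => LinearMap.range (y q)) q hq)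
        rintro _ ⟨_, ⟨v, rfl⟩, rfl⟩
        refine ⟨y q₀ v, ?_⟩
        exact congrArg (fun f : Module.End 𝒪 M => f v) (hy q q₀).eq
      have hPmapk : ∀ k : ℕ, P.map (y q₀ ^ k) ≤ P := by
        intro k
        induction k with
        | zero =>
          rintro _ ⟨t, ht, rfl⟩
          rw [pow_zero]; exact ht
        | succ k ihk =>
          rw [pow_succ', Module.End.mul_eq_comp, Submodule.map_comp]
          exact (Submodule.map_mono ihk).trans hPmap
      have hk : ∀ k : ℕ, ⊤ ≤ P ⊔ LinearMap.range (y q₀ ^ k) := by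
        intro k
        induction k with
        | zero =>
          intro v _
          refine Submodule.mem_sup_right ⟨v, ?_⟩
          rw [pow_zero]; rfl
        | succ k ihk =>
          refine ihk.trans (sup_le le_sup_left ?_)
          rw [LinearMap.range_eq_map]
          refine (Submodule.map_mono h').trans ?_
          rw [Submodule.map_sup]
          refine sup_le ((hPmapk k).trans le_sup_left) ?_
          refine le_sup_of_le_right ?_
          rintro _ ⟨_, ⟨v, rfl⟩, rfl⟩
          refine ⟨v, ?_⟩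
          rw [pow_succ, Module.End.mul_apply]
      refine ih ?_
      refine (hk (K q₀)).trans (sup_le le_rfl ?_)
      rintro _ ⟨v, rfl⟩
      exact Submodule.mem_sup_left (Submodule.mem_sup_right (hK q₀ v))
  have h1 : (⊤ : Submodule 𝒪 M) ≤ M' ⊔ maximalIdeal 𝒪 • (⊤ : Submodule 𝒪 M) := key s h
  have hfg : (⊤ : Submodule 𝒪 M).FG := Module.Finite.fg_top
  exact top_le_iff.mp
    (Submodule.le_of_le_smul_of_le_jacobson_bot hfg (maximalIdeal_le_jacobson ⊥) h1)

end Nak

section Free

variable {𝒪 : Type*} [CommRing 𝒪] [IsLocalRing 𝒪]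
  {M : Type*} [AddCommGroup M] [Module 𝒪 M] [Module.Finite 𝒪 M]

/-- **Inertia-freeness, group form.**  `M` is free over `𝒪[G]` for the action `x` on the
generators `w j`; `G` is generated by elements `γ q` of order `p ^ c q` such that
`(a (γ q) - 1) M ⊆ (x (γ q) - 1) M` (SC) and `a (γ q)` has no fixed vector in
`ker Φ_p (x (γ q))` (WL).  Then `(x (γ q) - 1) M ⊆ (a (γ q) - 1) M` and `M` is free over `𝒪[G]`
for the action `a`, on the same generators. -/
theorem ihp_inertia_free {p : ℕ} (hp : p.Prime) (hp2 : 2 < p)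
    (hp𝔪 : (p : 𝒪) ∈ maximalIdeal 𝒪) (htf : ∀ v : M, (p : 𝒪) • v = 0 → v = 0)
    {G : Type*} [CommGroup G] [Finite G] {ι : Type*} [Finite ι]
    (x a : G →* Module.End 𝒪 M) (hcomm : ∀ g h, Commute (x g) (a h))
    (w : ι → M) (b : Module.Basis (ι × G) 𝒪 M) (hb : ∀ j g, b (j, g) = x g (w j))
    {Q : Type*} [Finite Q] (γ : Q → G) (c : Q → ℕ) (hc : ∀ q, 0 < c q)
    (hγ : ∀ q, orderOf (γ q) = p ^ c q) (hgen : Subgroup.closure (Set.range γ) = ⊤)
    (hsc : ∀ q v, ∃ u, a (γ q) v - v = x (γ q) u - u)
    (hwl : ∀ q v, (∑ i ∈ range p, x (γ q) ^ i : Module.End 𝒪 M) v = 0 → a (γ q) v = v →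
      v = 0) :
    (∀ q v, ∃ u, x (γ q) v - v = a (γ q) u - u) ∧
    ∃ b' : Module.Basis (ι × G) 𝒪 M, ∀ j g, b' (j, g) = a g (w j) := by
  classical
  haveI : Fintype Q := Fintype.ofFinite Q
  haveI : Fintype G := Fintype.ofFinite G
  haveI : Fintype ι := Fintype.ofFinite ι
  have hxb : ∀ h j g, x h (b (j, g)) = b (j, h * g) := fun h j g => by
    rw [hb, hb, map_mul]; rfl
  have hxpow : ∀ q, x (γ q) ^ (p ^ c q) = 1 := fun q => by
    rw [← map_pow, ← hγ q, pow_orderOf_eq_one, map_one]
  have hapow : ∀ q, a (γ q) ^ (p ^ c q) = 1 := fun q => by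
    rw [← map_pow, ← hγ q, pow_orderOf_eq_one, map_one]
  -- step 1: the one-prime lemma at each `q`
  have h1 : ∀ q v, ∃ u, x (γ q) v - v = a (γ q) u - u := by
    intro q
    obtain ⟨e, he⟩ := ihpi_exists_proj (γ q) (p ^ c q) (pow_pos hp.pos _) (hγ q) x b hxb
    exact ihp_inertia hp hp2 hp𝔪 htf (x (γ q)) (a (γ q)) e (hcomm _ _) (c q) (hc q) (hxpow q)
      (hapow q) he (hsc q) (hwl q)
  refine ⟨h1, ?_⟩
  -- step 2: the span of the `a g (w j)`
  set fam : ι × G → M := fun jg => a jg.2 (w jg.1) with hfam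
  set M' : Submodule 𝒪 M := Submodule.span 𝒪 (Set.range fam) with hM'
  have haa : ∀ g h : G, Commute (a g) (a h) := fun g h => by
    show a g * a h = a h * a g
    rw [← map_mul, ← map_mul, mul_comm]
  have hM'a : ∀ h : G, ∀ v ∈ M', a h v ∈ M' := by
    intro h v hv
    have : M'.map (a h) ≤ M' := by
      rw [hM', Submodule.map_span, Submodule.span_le]
      rintro _ ⟨_, ⟨⟨j, g⟩, rfl⟩, rfl⟩
      refine Submodule.subset_span ⟨(j, h * g), ?_⟩
      show a (h * g) (w j) = a h (a g (w j))
      rw [map_mul]; rfl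
    exact this ⟨v, hv, rfl⟩
  set y : Q → Module.End 𝒪 M := fun q => a (γ q) - 1 with hy
  have hyy : ∀ q q', Commute (y q) (y q') := fun q q' =>
    ((haa _ _).sub_left (Commute.one_left _)).sub_right (Commute.one_right _)
  have hyK : ∀ q v, (y q ^ (p ^ c q)) v ∈ maximalIdeal 𝒪 • (⊤ : Submodule 𝒪 M) := by
    intro q v
    obtain ⟨h, _, hpow⟩ := ihpi_sub_one_pow_apply hp (c q) (a (γ q)) (hapow q)
    rw [hy]
    show ((a (γ q) - 1) ^ (p ^ c q)) v ∈ _
    rw [hpow, Module.End.mul_apply]
    have : ((p : Module.End 𝒪 M)) (h v) = (p : 𝒪) • h v := by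
      rw [Nat.cast_smul_eq_nsmul]; simp
    rw [this]
    exact Submodule.smul_mem_smul hp𝔪 Submodule.mem_top
  have hyM' : ∀ q, ∀ v ∈ M', y q v ∈ M' := by
    intro q v hv
    show (a (γ q) - 1 : Module.End 𝒪 M) v ∈ M'
    rw [LinearMap.sub_apply]
    exact Submodule.sub_mem _ (hM'a _ v hv) hv
  -- the augmentation submodule for `x`
  set Ax : Submodule 𝒪 M := ⨆ q, LinearMap.range (x (γ q) - 1 : Module.End 𝒪 M) with hAx
  set Aa : Submodule 𝒪 M := ⨆ q ∈ (Finset.univ : Finset Q), LinearMap.range (y q) with hAa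
  have hAxa : Ax ≤ Aa := by
    rw [hAx, hAa]
    refine iSup_le fun q => ?_
    refine le_trans ?_ (le_iSup₂ (f := fun q _ => LinearMap.range (y q)) q (Finset.mem_univ q))
    rintro _ ⟨v, rfl⟩
    obtain ⟨u, hu⟩ := h1 q v
    refine ⟨u, ?_⟩
    show (a (γ q) - 1 : Module.End 𝒪 M) u = (x (γ q) - 1 : Module.End 𝒪 M) v
    rw [LinearMap.sub_apply, LinearMap.sub_apply]
    exact hu.symm
  have hclos : ∀ g : G, ∀ v : M, x g v - v ∈ Ax := by
    intro g
    have hg : g ∈ Subgroup.closure (Set.range γ) := by rw [hgen]; exact Subgroup.mem_top g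
    induction hg using Subgroup.closure_induction with
    | mem g hg =>
      obtain ⟨q, rfl⟩ := hg
      intro v
      refine Submodule.mem_iSup_of_mem q ⟨v, ?_⟩
      rw [LinearMap.sub_apply]; rfl
    | one =>
      intro v
      rw [map_one]
      show v - v ∈ Ax
      rw [sub_self]; exact Submodule.zero_mem _
    | mul g h _ _ ihg ihh =>
      intro v
      have : x (g * h) v - v = (x g (x h v) - x h v) + (x h v - v) := by
        rw [map_mul, Module.End.mul_apply]; abel
      rw [this]
      exact Submodule.add_mem _ (ihg _) (ihh _)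
    | inv g _ ihg =>
      intro v
      have h2 : x g (x g⁻¹ v) = v := by
        rw [← Module.End.mul_apply, ← map_mul, mul_inv_cancel, map_one]; rfl
      have : x g⁻¹ v - v = -(x g (x g⁻¹ v) - x g⁻¹ v) := by rw [h2]; abel
      rw [this]
      exact Submodule.neg_mem _ (ihg _)
  have htop : ⊤ ≤ M' ⊔ maximalIdeal 𝒪 • (⊤ : Submodule 𝒪 M) ⊔ Aa := by
    intro v _
    rw [← b.sum_repr v]
    refine Submodule.sum_mem _ fun jg _ => Submodule.smul_mem _ _ ?_
    obtain ⟨j, g⟩ := jg
    have hw : w j ∈ M' := by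
      refine Submodule.subset_span ⟨(j, 1), ?_⟩
      show a 1 (w j) = w j
      rw [map_one]; rfl
    have : b (j, g) = w j + (x g (w j) - w j) := by rw [hb]; abel
    rw [this]
    exact Submodule.add_mem _ (Submodule.mem_sup_left (Submodule.mem_sup_left hw))
      (Submodule.mem_sup_right (hAxa (hclos g (w j))))
  have hM'top : M' = ⊤ :=
    ihpi_nakayama_comm Finset.univ y hyy (fun q => p ^ c q) hyK M' hyM' htop
  -- step 3: count
  set f : (ι × G →₀ 𝒪) →ₗ[𝒪] M := Finsupp.linearCombination 𝒪 fam with hf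
  have hfsurj : Function.Surjective f := by
    rw [← LinearMap.range_eq_top, hf, Finsupp.range_linearCombination, ← hM', hM'top]
  have hfinj : Function.Injective f := by
    set φ : (ι × G →₀ 𝒪) →ₗ[𝒪] (ι × G →₀ 𝒪) := b.repr.toLinearMap ∘ₗ f with hφ
    have hφs : Function.Surjective φ := b.repr.surjective.comp hfsurj
    have hφi := OrzechProperty.injective_of_surjective_endomorphism φ hφs
    intro u v huv
    apply hφi
    show b.repr (f u) = b.repr (f v)
    rw [huv]
  let E : (ι × G →₀ 𝒪) ≃ₗ[𝒪] M := LinearEquiv.ofBijective f ⟨hfinj, hfsurj⟩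
  refine ⟨Module.Basis.ofRepr E.symm, fun j g => ?_⟩
  show E (Finsupp.single (j, g) 1) = a g (w j)
  show f (Finsupp.single (j, g) 1) = a g (w j)
  rw [hf, Finsupp.linearCombination_single, one_smul]

end Free

end Fermat.Agent.Ihara
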