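/-
IHARA / P (helper2), part 12: from a free `𝒪[G]`-module to matrices.

`a : G →* End_𝒪 M`, `M` free over `𝒪[G]` on the generators `w j` (basis `b' (j, g) = a g (w j)`),
`B` a commutative `𝒪`-algebra with a monoid hom `u : G →* B`.  Every commutative `𝒪`-algebra `A`
acting on `M` through `ρ` by endomorphisms commuting with `a` gets an `𝒪`-algebra hom
`τ : A →ₐ[𝒪] Matrix ι ι B` (the action on `B ⊗_{𝒪[G]} M` in the basis `1 ⊗ w j`) with
`τ t = scalar (u g)` when `ρ t = a g`, and `τ t ∈ c • Mat` when `ρ t M ⊆ c M`.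
-/
import Mathlib

set_option autoImplicit false
set_option linter.unusedSectionVars false
set_option linter.unusedVariables false
set_option linter.style.haveILetI false
set_option linter.unusedSimpArgs false

namespace Fermat.Agent.Ihara

open Finset

section Mat

variable {𝒪 : Type*} [CommRing 𝒪] {M : Type*} [AddCommGroup M] [Module 𝒪 M]
  {G : Type*} [CommGroup G] {ι : Type*} [Fintype ι] [DecidableEq ι]
  {B : Type*} [CommRing B] [Algebra 𝒪 B]

/-- the evaluation `M → B^ι`, `a g (w j) ↦ u g • e_j` -/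
noncomputable def ihpEv (b' : Module.Basis (ι × G) 𝒪 M) (u : G →* B) : M →ₗ[𝒪] (ι → B) :=
  b'.constr 𝒪 (fun jg => Pi.single jg.1 (u jg.2))

theorem ihpEv_basis (b' : Module.Basis (ι × G) 𝒪 M) (u : G →* B) (j : ι) (g : G) :
    ihpEv b' u (b' (j, g)) = Pi.single j (u g) := by
  rw [ihpEv, Module.Basis.constr_basis]

theorem ihpEv_act (a : G →* Module.End 𝒪 M) (w : ι → M) (b' : Module.Basis (ι × G) 𝒪 M)
    (hb' : ∀ j g, b' (j, g) = a g (w j)) (u : G →* B) (g : G) (m : M) :
    ihpEv b' u (a g m) = u g • ihpEv b' u m := by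
  have h : (ihpEv b' u) ∘ₗ (a g) = (u g) • (ihpEv b' u) := by
    refine b'.ext fun jh => ?_
    obtain ⟨j, h⟩ := jh
    rw [LinearMap.comp_apply, LinearMap.smul_apply, ihpEv_basis, hb']
    have : a g (a h (w j)) = b' (j, g * h) := by
      rw [hb', map_mul]; rfl
    rw [this, ihpEv_basis, map_mul]
    ext i
    by_cases hij : i = j
    · subst hij
      simp
    · simp [hij]
  exact congrArg (fun f : M →ₗ[𝒪] (ι → B) => f m) h

/-- the matrix of an endomorphism -/
noncomputable def ihpMat (w : ι → M) (b' : Module.Basis (ι × G) 𝒪 M) (u : G →* B)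
    (T : Module.End 𝒪 M) : Matrix ι ι B :=
  Matrix.of fun i j => ihpEv b' u (T (w j)) i

theorem ihpMat_apply (w : ι → M) (b' : Module.Basis (ι × G) 𝒪 M) (u : G →* B)
    (T : Module.End 𝒪 M) (i j : ι) : ihpMat w b' u T i j = ihpEv b' u (T (w j)) i := rfl

theorem ihpEv_comm (a : G →* Module.End 𝒪 M) (w : ι → M) (b' : Module.Basis (ι × G) 𝒪 M)
    (hb' : ∀ j g, b' (j, g) = a g (w j)) (u : G →* B) (T : Module.End 𝒪 M)
    (hT : ∀ g, Commute T (a g)) (m : M) :
    ihpEv b' u (T m) = (ihpMat w b' u T).mulVec (ihpEv b' u m) := by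
  have h : (ihpEv b' u) ∘ₗ T
      = ((Matrix.mulVecLin (ihpMat w b' u T)).restrictScalars 𝒪) ∘ₗ (ihpEv b' u) := by
    refine b'.ext fun jg => ?_
    obtain ⟨j, g⟩ := jg
    rw [LinearMap.comp_apply, LinearMap.comp_apply, hb']
    have h1 : T (a g (w j)) = a g (T (w j)) := congrArg (fun f : Module.End 𝒪 M => f (w j)) (hT g).eq
    rw [h1, ihpEv_act a w b' hb', ← hb', ihpEv_basis]
    ext i
    simp only [Pi.smul_apply, smul_eq_mul, LinearMap.coe_restrictScalars, Matrix.mulVecLin_apply]
    simp [Matrix.mulVec, dotProduct, Pi.single_apply, ihpMat_apply, mul_comm]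
  exact congrArg (fun f : M →ₗ[𝒪] (ι → B) => f m) h

/-- **matrices from a free `𝒪[G]`-module** -/
theorem ihp_mat_of_basis (a : G →* Module.End 𝒪 M) (w : ι → M)
    (b' : Module.Basis (ι × G) 𝒪 M) (hb' : ∀ j g, b' (j, g) = a g (w j)) (u : G →* B)
    {A : Type*} [CommRing A] [Algebra 𝒪 A] (ρ : A →ₐ[𝒪] Module.End 𝒪 M)
    (hρ : ∀ t g, Commute (ρ t) (a g)) :
    ∃ τ : A →ₐ[𝒪] Matrix ι ι B,
      (∀ t g, ρ t = a g → τ t = Matrix.scalar ι (u g)) ∧
      (∀ t (c : 𝒪), (∀ v, ∃ v', ρ t v = c • v') → ∃ Y : Matrix ι ι B, τ t = algebraMap 𝒪 B c • Y) := by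
  have hw : ∀ j, ihpEv b' u (w j) = Pi.single j (1 : B) := by
    intro j
    have : w j = b' (j, 1) := by rw [hb', map_one]; rfl
    rw [this, ihpEv_basis, map_one]
  have hone : ihpMat w b' u (1 : Module.End 𝒪 M) = 1 := by
    ext i j
    rw [ihpMat_apply, Module.End.one_apply, hw, Matrix.one_apply, Pi.single_apply]
  have hmul : ∀ T₁ T₂ : Module.End 𝒪 M, (∀ g, Commute T₁ (a g)) →
      ihpMat w b' u (T₁ * T₂) = ihpMat w b' u T₁ * ihpMat w b' u T₂ := by
    intro T₁ T₂ hT₁
    ext i j
    rw [ihpMat_apply, Module.End.mul_apply, ihpEv_comm a w b' hb' u T₁ hT₁, Matrix.mul_apply]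
    rfl
  have hadd : ∀ T₁ T₂ : Module.End 𝒪 M,
      ihpMat w b' u (T₁ + T₂) = ihpMat w b' u T₁ + ihpMat w b' u T₂ := by
    intro T₁ T₂
    ext i j
    rw [Matrix.add_apply, ihpMat_apply, ihpMat_apply, ihpMat_apply, LinearMap.add_apply, map_add,
      Pi.add_apply]
  have hsmul : ∀ (c : 𝒪) (T : Module.End 𝒪 M),
      ihpMat w b' u (c • T) = algebraMap 𝒪 B c • ihpMat w b' u T := by
    intro c T
    ext i j
    rw [Matrix.smul_apply, ihpMat_apply, ihpMat_apply, LinearMap.smul_apply, map_smul,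
      Pi.smul_apply, smul_eq_mul, Algebra.smul_def]
  refine ⟨{ toFun := fun t => ihpMat w b' u (ρ t)
            map_one' := by rw [map_one]; exact hone
            map_mul' := fun t t' => by rw [map_mul]; exact hmul _ _ (hρ t)
            map_zero' := by
              rw [map_zero]
              ext i j
              rw [ihpMat_apply, LinearMap.zero_apply, map_zero]; rfl
            map_add' := fun t t' => by rw [map_add]; exact hadd _ _
            commutes' := fun c => by
              rw [AlgHom.commutes, Algebra.algebraMap_eq_smul_one, hsmul, hone]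
              ext i j
              rw [Matrix.smul_apply, Matrix.algebraMap_matrix_apply, Matrix.one_apply]
              by_cases hij : i = j
              · rw [if_pos hij, if_pos hij, smul_eq_mul, mul_one]
              · rw [if_neg hij, if_neg hij, smul_zero] }, ?_, ?_⟩
  · intro t g htg
    show ihpMat w b' u (ρ t) = _
    ext i j
    rw [ihpMat_apply, htg, ihpEv_act a w b' hb', hw, Pi.smul_apply, smul_eq_mul,
      Pi.single_apply, Matrix.scalar_apply, Matrix.diagonal_apply]
    by_cases hij : i = j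
    · rw [if_pos hij, if_pos hij, mul_one]
    · rw [if_neg hij, if_neg hij, mul_zero]
  · intro t c htc
    choose v' hv' using htc
    refine ⟨Matrix.of fun i j => ihpEv b' u (v' (w j)) i, ?_⟩
    show ihpMat w b' u (ρ t) = _
    ext i j
    rw [ihpMat_apply, hv', map_smul, Pi.smul_apply, Matrix.smul_apply, Matrix.of_apply,
      smul_eq_mul, Algebra.smul_def]

end Mat

end Fermat.Agent.Ihara
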