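/-
IHARA / P (helper2), part 9: coefficientwise extension of a matrix-valued ring hom to power series,
`A →+* Mat_d B  ⟹  A[[Z]] →+* Mat_d (B[[Z]])`  (so that framing variables cost nothing on the
Hecke side: if `T` acts on a free `B`-module of rank `d`, then `T[[Z]]` acts on the free
`B[[Z]]`-module of rank `d`).
-/
import Mathlib

set_option autoImplicit false
set_option linter.style.haveILetI false
set_option linter.unusedSectionVars false

namespace Fermat.Agent.Ihara

open MvPowerSeries

variable {A B σ : Type*} [CommRing A] [CommRing B] {d : ℕ}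

/-- the underlying function of `ihpCoeffExt` -/
noncomputable def ihpCoeffExtFun (τ : A →+* Matrix (Fin d) (Fin d) B) (f : MvPowerSeries σ A) :
    Matrix (Fin d) (Fin d) (MvPowerSeries σ B) :=
  Matrix.of fun i j => (fun x => τ (coeff x f) i j : MvPowerSeries σ B)

theorem coeff_ihpCoeffExtFun (τ : A →+* Matrix (Fin d) (Fin d) B) (f : MvPowerSeries σ A)
    (i j : Fin d) (x : σ →₀ ℕ) :
    coeff x (ihpCoeffExtFun τ f i j) = τ (coeff x f) i j := rfl

/-- coefficientwise extension of `τ : A →+* Mat_d B` to `A[[Z]] →+* Mat_d (B[[Z]])` -/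
noncomputable def ihpCoeffExt (τ : A →+* Matrix (Fin d) (Fin d) B) :
    MvPowerSeries σ A →+* Matrix (Fin d) (Fin d) (MvPowerSeries σ B) where
  toFun := ihpCoeffExtFun τ
  map_one' := by
    classical
    ext i j x
    rw [coeff_ihpCoeffExtFun, coeff_one]
    by_cases hx : x = 0
    · rw [if_pos hx, map_one]
      by_cases hij : i = j
      · subst hij
        rw [Matrix.one_apply_eq, Matrix.one_apply_eq, coeff_one, if_pos hx]
      · rw [Matrix.one_apply_ne hij, Matrix.one_apply_ne hij, map_zero]
    · rw [if_neg hx, map_zero, Matrix.zero_apply]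
      by_cases hij : i = j
      · subst hij
        rw [Matrix.one_apply_eq, coeff_one, if_neg hx]
      · rw [Matrix.one_apply_ne hij, map_zero]
  map_mul' f g := by
    classical
    ext i j x
    rw [coeff_ihpCoeffExtFun, coeff_mul, map_sum, Matrix.mul_apply, map_sum, Matrix.sum_apply]
    simp_rw [map_mul, Matrix.mul_apply, coeff_mul, coeff_ihpCoeffExtFun]
    rw [Finset.sum_comm]
  map_zero' := by
    ext i j x
    rw [coeff_ihpCoeffExtFun, map_zero, map_zero, Matrix.zero_apply, Matrix.zero_apply, map_zero]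
  map_add' f g := by
    ext i j x
    rw [coeff_ihpCoeffExtFun, map_add, map_add, Matrix.add_apply, Matrix.add_apply, map_add,
      coeff_ihpCoeffExtFun, coeff_ihpCoeffExtFun]

theorem coeff_ihpCoeffExt (τ : A →+* Matrix (Fin d) (Fin d) B) (f : MvPowerSeries σ A)
    (i j : Fin d) (x : σ →₀ ℕ) :
    coeff x (ihpCoeffExt τ f i j) = τ (coeff x f) i j := rfl

/-- if `τ` sends every coefficient of `f` to the scalar matrix of the corresponding coefficient of
`g`, then the extension sends `f` to the scalar matrix `g` -/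
theorem ihpCoeffExt_eq_scalar (τ : A →+* Matrix (Fin d) (Fin d) B) (f : MvPowerSeries σ A)
    (g : MvPowerSeries σ B) (h : ∀ x, τ (coeff x f) = Matrix.scalar (Fin d) (coeff x g)) :
    ihpCoeffExt τ f = Matrix.scalar (Fin d) g := by
  ext i j x
  rw [coeff_ihpCoeffExt, h x]
  by_cases hij : i = j
  · subst hij
    simp
  · simp [hij]

/-- compatibility with a ring hom `ι : B →+* A` through which `τ` is `B`-linear -/
theorem ihpCoeffExt_map (τ : A →+* Matrix (Fin d) (Fin d) B) (ι : B →+* A)
    (hι : ∀ b, τ (ι b) = Matrix.scalar (Fin d) b) (g : MvPowerSeries σ B) :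
    ihpCoeffExt τ (MvPowerSeries.map ι g) = Matrix.scalar (Fin d) g := by
  apply ihpCoeffExt_eq_scalar
  intro x
  rw [coeff_map, hι]

/-- constants -/
theorem ihpCoeffExt_C (τ : A →+* Matrix (Fin d) (Fin d) B) (a : A) :
    ihpCoeffExt τ (C (σ := σ) a) = (C (σ := σ) (R := B)).mapMatrix (τ a) := by
  classical
  ext i j x
  rw [coeff_ihpCoeffExt, RingHom.mapMatrix_apply, Matrix.map_apply, coeff_C, coeff_C]
  by_cases hx : x = 0
  · rw [if_pos hx, if_pos hx]
  · rw [if_neg hx, if_neg hx, map_zero, Matrix.zero_apply]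

/-- divisibility of a constant passes to the extension -/
theorem ihpCoeffExt_C_dvd (τ : A →+* Matrix (Fin d) (Fin d) B) (a : A) (ϖ : B)
    (Y : Matrix (Fin d) (Fin d) B) (h : τ a = ϖ • Y) :
    ihpCoeffExt τ (C (σ := σ) a) =
      C (σ := σ) ϖ • (C (σ := σ) (R := B)).mapMatrix Y := by
  rw [ihpCoeffExt_C, h]
  ext i j
  simp only [RingHom.mapMatrix_apply, Matrix.map_apply, Matrix.smul_apply, smul_eq_mul, map_mul]

/-- the variables go to scalars -/
theorem ihpCoeffExt_X (τ : A →+* Matrix (Fin d) (Fin d) B) (s : σ) :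
    ihpCoeffExt τ (X s : MvPowerSeries σ A) = Matrix.scalar (Fin d) (X s : MvPowerSeries σ B) := by
  classical
  apply ihpCoeffExt_eq_scalar
  intro x
  rw [coeff_X, coeff_X]
  by_cases hx : x = Finsupp.single s 1
  · rw [if_pos hx, if_pos hx, map_one, map_one]
  · rw [if_neg hx, if_neg hx, map_zero, map_zero]

end Fermat.Agent.Ihara
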