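/-
IHARA / P (helper2), part 2: uniform nilpotency.  In a finite local ring `A` the maximal ideal is
killed by the exponent `Nat.card A`; hence a ring hom from a local ring `R` to a finite ring `E`
kills `𝔪_R ^ Nat.card E`.
-/
import Mathlib

set_option autoImplicit false
set_option linter.style.haveILetI false

namespace Fermat.Agent.Ihara

open IsLocalRing

/-- in a finite local ring the powers of the maximal ideal strictly decrease until they vanish -/
theorem ihp_card_pow_add_le {A : Type*} [CommRing A] [IsLocalRing A] [Finite A] (i : ℕ)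
    (hi : maximalIdeal A ^ i ≠ ⊥) :
    Nat.card ↥(maximalIdeal A ^ i) + i ≤ Nat.card A := by
  induction i with
  | zero =>
    simp only [pow_zero, Ideal.one_eq_top, add_zero]
    exact le_of_eq (Nat.card_congr (Equiv.Set.univ A))
  | succ i ih =>
    have hi' : maximalIdeal A ^ i ≠ ⊥ := by
      intro h0
      apply hi
      rw [pow_succ, h0, Ideal.bot_mul]
    have hlt : maximalIdeal A ^ (i + 1) < maximalIdeal A ^ i := by
      refine lt_of_le_of_ne (Ideal.pow_le_pow_right (Nat.le_succ i)) ?_
      intro heq
      apply hi'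
      have hfg : (maximalIdeal A ^ i).FG := (isNoetherianRing_iff_ideal_fg A).mp inferInstance _
      have hle : maximalIdeal A ^ i ≤ maximalIdeal A • maximalIdeal A ^ i := by
        rw [smul_eq_mul, ← pow_succ', heq]
      exact Submodule.eq_bot_of_le_smul_of_le_jacobson_bot _ _ hfg hle
        (le_of_eq (jacobson_eq_maximalIdeal ⊥ bot_ne_top).symm)
    have hcard : Nat.card ↥(maximalIdeal A ^ (i + 1)) < Nat.card ↥(maximalIdeal A ^ i) := by
      have hss : ((maximalIdeal A ^ (i + 1) : Ideal A) : Set A) ⊂ (maximalIdeal A ^ i : Ideal A) :=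
        hlt
      have := Set.ncard_lt_ncard hss (Set.toFinite _)
      exact this
    have := ih hi'
    omega

theorem ihp_maximalIdeal_pow_card {A : Type*} [CommRing A] [IsLocalRing A] [Finite A] :
    maximalIdeal A ^ Nat.card A = ⊥ := by
  by_contra h
  have h1 := ihp_card_pow_add_le (Nat.card A) h
  have h2 : 0 < Nat.card ↥(maximalIdeal A ^ Nat.card A) := Nat.card_pos
  omega

/-- a ring hom from a local ring to a finite ring kills a fixed power of the maximal ideal -/
theorem ihp_map_pow_eq_zero {R E : Type*} [CommRing R] [IsLocalRing R] [Ring E] [Finite E]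
    (f : R →+* E) {N : ℕ} (hN : Nat.card E ≤ N) {x : R} (hx : x ∈ maximalIdeal R ^ N) :
    f x = 0 := by
  rcases subsingleton_or_nontrivial E with hE | hE
  · exact Subsingleton.elim _ _
  -- the quotient by the kernel is a finite local ring
  set K := RingHom.ker f with hK
  have hKne : K ≠ ⊤ := RingHom.ker_ne_top f
  haveI : Nontrivial (R ⧸ K) := Ideal.Quotient.nontrivial_iff.mpr hKne
  haveI : IsLocalRing (R ⧸ K) :=
    IsLocalRing.of_surjective' (Ideal.Quotient.mk K) Ideal.Quotient.mk_surjective
  have hinj : Function.Injective (RingHom.kerLift f) := RingHom.kerLift_injective f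
  haveI : Finite (R ⧸ K) := Finite.of_injective _ hinj
  have hcard : Nat.card (R ⧸ K) ≤ Nat.card E := Nat.card_le_card_of_injective _ hinj
  have h1 : Ideal.Quotient.mk K x ∈ maximalIdeal (R ⧸ K) ^ N := by
    have h2 : (maximalIdeal R).map (Ideal.Quotient.mk K) ≤ maximalIdeal (R ⧸ K) := by
      rw [Ideal.map_le_iff_le_comap]
      intro y hy
      rw [Ideal.mem_comap, mem_maximalIdeal, mem_nonunits_iff]
      intro hu
      obtain ⟨w, hw⟩ := hu.exists_right_inv
      obtain ⟨z, rfl⟩ := Ideal.Quotient.mk_surjective w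
      rw [← map_mul, ← map_one (Ideal.Quotient.mk K), Ideal.Quotient.eq] at hw
      have h6 : y * z - 1 ∈ maximalIdeal R := IsLocalRing.le_maximalIdeal hKne hw
      have h7 : y * z ∈ maximalIdeal R := Ideal.mul_mem_right z _ hy
      have h8 : (1 : R) ∈ maximalIdeal R := by
        have : (1 : R) = y * z - (y * z - 1) := by ring
        rw [this]
        exact Ideal.sub_mem _ h7 h6
      exact (Ideal.ne_top_iff_one _).mp (maximalIdeal.isMaximal R).ne_top h8
    have h3 : Ideal.Quotient.mk K x ∈ ((maximalIdeal R) ^ N).map (Ideal.Quotient.mk K) :=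
      Ideal.mem_map_of_mem _ hx
    rw [Ideal.map_pow] at h3
    exact Ideal.pow_right_mono h2 N h3
  have h4 : maximalIdeal (R ⧸ K) ^ N = ⊥ := by
    have h5 : maximalIdeal (R ⧸ K) ^ N ≤ maximalIdeal (R ⧸ K) ^ Nat.card (R ⧸ K) :=
      Ideal.pow_le_pow_right (hcard.trans hN)
    rw [ihp_maximalIdeal_pow_card] at h5
    exact le_bot_iff.mp h5
  rw [h4, Ideal.mem_bot, Ideal.Quotient.eq_zero_iff_mem] at h1
  exact h1

end Fermat.Agent.Ihara
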